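/-
Stmt_Tate part T7 (residual absolute irreducibility + Taylor–Wiles condition) — owner helper7.
Plan: NOTES/plan/Tate_T7.md.  Target: `Fermat.Agent.Tate.Stmt_T7` (Tate/Defs.lean).

Interfaces of the pieces (exact Lean statements).  Prove `theorem … : Stmt_X` in
`Fermat/Agent/Tate/T7/H<seat>_<Name>.lean`, namespace `Fermat.Agent.Tate.T7.H<seat>`.

Everything local is stated on the points `E[p](Q̄)` with the Galois action `σ • P`
(no linear algebra); `A` is a valuation subring of `Q̄` over `p`, `I_A = A.inertiaSubgroupIn ℚ`.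

* `Stmt_T7a`   : residual absolute irreducibility.
* `Stmt_T7b`   : the Taylor–Wiles condition `S59.TWCond`.
* `Stmt_TWT`   : torsion form: for every subgroup `H` of index 2 the image of `H` spans
                 `End (E[p])` over `ZMod p`.
* `OrdAt`, `SsAt` : the two local types at `p`;  `Stmt_LOCbad`, `Stmt_LOCgood`, `Stmt_LOCss`.
* `Stmt_SSval`, `Stmt_SSsep`, `Stmt_SSmul`, `Stmt_RAD` : the pieces of `Stmt_LOCss`.
* `Stmt_CYC`   : inertia at `p` surjects onto `Gal(ℚ(μ_p)/ℚ)`.
-/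
import Fermat.Agent.Tate.Defs
import Fermat.Agent.S58.H99_Tors

set_option autoImplicit false

open WeierstrassCurve WeierstrassCurve.Affine Polynomial

namespace Fermat.Agent.Tate.T7

open Fermat.Agent.S58.H99 (TorsW torsRho)

/-- `Q̄`. -/
abbrev Qb : Type := AlgebraicClosure ℚ

/-! ### The two halves of T7 -/

/-- **T7a** residual absolute irreducibility. -/
def Stmt_T7a : Prop :=
  ∀ (W : WeierstrassCurve ℤ), W.Δ ≠ 0 → W.IsSemistableModel →
    ∀ (p : ℕ) [Fact p.Prime], p ≠ 2 → ∀ (D : TateData W p),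
      W.ModRepIsIrreducible p → D.ρ.residual.IsAbsolutelyIrreducible

/-- **T7b** the Taylor–Wiles condition. -/
def Stmt_T7b : Prop :=
  ∀ (W : WeierstrassCurve ℤ), W.Δ ≠ 0 → W.IsSemistableModel →
    ∀ (p : ℕ) [Fact p.Prime], p ≠ 2 → ∀ (D : TateData W p),
      W.ModRepIsIrreducible p → Fermat.Agent.S59.TWCond D.ρ.residual

theorem stmt_T7_of (ha : Stmt_T7a) (hb : Stmt_T7b) : Stmt_T7 :=
  fun W hΔ hss p _ hp2 D hirr => ⟨ha W hΔ hss p hp2 D hirr, hb W hΔ hss p hp2 D hirr⟩

/-- **TWT** (torsion form of the Taylor–Wiles condition): for a semistable curve with irreducible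
`E[p]`, `p` odd, the image of every subgroup of index `2` of `Gal(Q̄/ℚ)` spans `End (E[p])`. -/
def Stmt_TWT : Prop :=
  ∀ (W : WeierstrassCurve ℤ), W.Δ ≠ 0 → W.IsSemistableModel →
    ∀ (p : ℕ) [Fact p.Prime], p ≠ 2 → W.ModRepIsIrreducible p →
      ∀ H : Subgroup GQ, H.index = 2 →
        Submodule.span (ZMod p) ((torsRho W p) '' (H : Set GQ)) = ⊤

/-- **XFER**: the torsion form gives the Taylor–Wiles condition of the residual representation of
any Tate datum (traces of `D.ρ.residual` are the traces on `E[p]`: `S58.H99.residual_trace_det`;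
Gram criterion `S58.H99.gram_det_eq_zero_of_stable`). -/
def Stmt_XFER : Prop := Stmt_TWT → Stmt_T7b

/-! ### Local types at `p` -/

/-- *Ordinary type* at `A`: a homomorphism on `E(Q̄)`, invariant under inertia, which does not
kill `E[p]`  (good ordinary reduction: the reduction map; multiplicative reduction: the
component homomorphism). -/
def OrdAt (W : WeierstrassCurve ℤ) (p : ℕ) (A : ValuationSubring Qb) : Prop :=
  ∃ (G : Type) (_ : AddCommGroup G) (c : EQbar W →+ G),
    (∃ P : EQbar W, p • P = 0 ∧ c P ≠ 0) ∧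
    ∀ σ ∈ A.inertiaSubgroupIn ℚ, ∀ P : EQbar W, c (σ • P) = c P

/-- *Supersingular type* at `A`: inertia acts on `E[p]` through a group which is commutative up to
sign, and the square of some element of inertia is not a scalar. -/
def SsAt (W : WeierstrassCurve ℤ) (p : ℕ) (A : ValuationSubring Qb) : Prop :=
  (∀ σ ∈ A.inertiaSubgroupIn ℚ, ∀ τ ∈ A.inertiaSubgroupIn ℚ, ∀ P : EQbar W, p • P = 0 →
      σ • τ • P = τ • σ • P ∨ σ • τ • P = -(τ • σ • P)) ∧
  ∃ τ ∈ A.inertiaSubgroupIn ℚ, ∀ n : ℕ, ∃ P : EQbar W, p • P = 0 ∧ τ • τ • P ≠ n • P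

/-- All nonzero `p`-torsion points have a non-integral `x`-coordinate at `A`
(they lie in the kernel of reduction). -/
def AllInKer (W : WeierstrassCurve ℤ) (p : ℕ) (A : ValuationSubring Qb) : Prop :=
  ∀ (x y : Qb) (h : ((W.map (Int.castRingHom ℚ)).toAffine⁄Qb).Nonsingular x y),
    p • (Point.some x y h : EQbar W) = 0 → x ∉ A

/-- **LOCbad**: multiplicative reduction at `p` is of ordinary type (from `T6.Stmt_LOC`). -/
def Stmt_LOCbad : Prop :=
  ∀ (W : WeierstrassCurve ℤ), W.Δ ≠ 0 → W.IsSemistableModel →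
    ∀ (p : ℕ), p.Prime → p ≠ 2 → ¬ W.IsGoodPrimeFor p →
      ∀ A : ValuationSubring Qb, A.LiesOverPrime p → OrdAt W p A

/-- **LOCgood**: good reduction at `p` with a `p`-torsion point outside the kernel of reduction
is of ordinary type (reduction map `Tate.H4.redQ`, `redQ_inertia`). -/
def Stmt_LOCgood : Prop :=
  ∀ (W : WeierstrassCurve ℤ), W.Δ ≠ 0 →
    ∀ (p : ℕ), p.Prime → p ≠ 2 → W.IsGoodPrimeFor p →
      ∀ A : ValuationSubring Qb, A.LiesOverPrime p → ¬ AllInKer W p A → OrdAt W p A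

/-- **LOCss**: if all of `E[p]` lies in the kernel of reduction, the curve is of supersingular
type at `A`. -/
def Stmt_LOCss : Prop :=
  ∀ (W : WeierstrassCurve ℤ), W.Δ ≠ 0 →
    ∀ (p : ℕ), p.Prime → p ≠ 2 →
      ∀ A : ValuationSubring Qb, A.LiesOverPrime p → AllInKer W p A → SsAt W p A

/-! ### The pieces of `Stmt_LOCss` -/

/-- **SSval** (Eisenstein): under `AllInKer`, `x(P)^((p²-1)/2) · p` is a unit of `A` for every
nonzero `P ∈ E[p]`.  [`preΨ'_p ∈ ℤ[X]` has leading coefficient `p`, degree `(p²-1)/2`, and its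
roots are the `x(P)` (`Lib/TorsionGen.prime_nsmul_eq_zero_iff_eval`); all roots are non-integral,
so the constant term is a unit at `p`, the middle coefficients are divisible by `p`, and the
reversed polynomial is Eisenstein.] -/
def Stmt_SSval : Prop :=
  ∀ (W : WeierstrassCurve ℤ), W.Δ ≠ 0 →
    ∀ (p : ℕ), p.Prime → p ≠ 2 →
      ∀ A : ValuationSubring Qb, A.LiesOverPrime p → AllInKer W p A →
        ∀ (x y : Qb) (h : ((W.map (Int.castRingHom ℚ)).toAffine⁄Qb).Nonsingular x y),
          p • (Point.some x y h : EQbar W) = 0 →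
            A.valuation (x ^ ((p ^ 2 - 1) / 2) * (p : Qb)) = 1

/-- **SSsep** (tame discriminant): under `AllInKer`, two `x`-coordinates of nonzero `p`-torsion
points which are congruent (`|x - x'| < |x|`) are equal.  [`f'(η) = c₀ ∏ (η - η')` for the
reversed polynomial `f`, and `|f'(η)| = |η|^(n-1)` since `p ∤ n = (p²-1)/2`.] -/
def Stmt_SSsep : Prop :=
  ∀ (W : WeierstrassCurve ℤ), W.Δ ≠ 0 →
    ∀ (p : ℕ), p.Prime → p ≠ 2 →
      ∀ A : ValuationSubring Qb, A.LiesOverPrime p → AllInKer W p A →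
        ∀ (x y : Qb) (h : ((W.map (Int.castRingHom ℚ)).toAffine⁄Qb).Nonsingular x y)
          (x' y' : Qb) (h' : ((W.map (Int.castRingHom ℚ)).toAffine⁄Qb).Nonsingular x' y'),
          p • (Point.some x y h : EQbar W) = 0 → p • (Point.some x' y' h' : EQbar W) = 0 →
            A.valuation (x - x') < A.valuation x → x = x'

/-- **SSmul** (multiplication formula): under `AllInKer`, `x(nP) · n² ≡ x(P)` for `0 < n < p`
and `P ∈ E[p]` nonzero.  [`Lib/TorsionGen/MulFormula.xc_nsmul_mul_eval_ΨSq`: `Φ_n` is monic of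
degree `n²`, `ΨSq_n` has leading coefficient `n²` and degree `n² - 1`, integral coefficients.] -/
def Stmt_SSmul : Prop :=
  ∀ (W : WeierstrassCurve ℤ), W.Δ ≠ 0 →
    ∀ (p : ℕ), p.Prime → p ≠ 2 →
      ∀ A : ValuationSubring Qb, A.LiesOverPrime p → AllInKer W p A →
        ∀ (x y : Qb) (h : ((W.map (Int.castRingHom ℚ)).toAffine⁄Qb).Nonsingular x y),
          p • (Point.some x y h : EQbar W) = 0 →
          ∀ (n : ℕ), 0 < n → n < p →
          ∀ (x' y' : Qb) (h' : ((W.map (Int.castRingHom ℚ)).toAffine⁄Qb).Nonsingular x' y'),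
            n • (Point.some x y h : EQbar W) = Point.some x' y' h' →
              A.valuation (x' * (n : Qb) ^ 2 - x) < A.valuation x

/-- **RAD** (tame ramification of radicals): if `|z|^e = |p|⁻¹` with `e ≥ 2` prime to `p`, some
element of the inertia group at `A` moves `z` modulo `z · 𝔪_A`.
[Otherwise inertia fixes `y` with `y^e = p` and `μ_e`, so `ℚ(y, μ_e)` is unramified at
`primeBelow A` (`Lib/MinkowskiCore.inertia_primeBelow_eq_bot`), but `p = y^e ∈ 𝔓^2`.] -/
def Stmt_RAD : Prop :=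
  ∀ (p : ℕ), p.Prime → ∀ A : ValuationSubring Qb, A.LiesOverPrime p →
    ∀ (z : Qb) (e : ℕ), 2 ≤ e → ¬ p ∣ e → A.valuation (z ^ e * (p : Qb)) = 1 →
      ∃ σ ∈ A.inertiaSubgroupIn ℚ, ¬ A.valuation (σ z - z) < A.valuation z

/-- **CYC**: the inertia group at `A ∣ p` surjects onto `Gal(ℚ(μ_p)/ℚ)`.
[Minkowski `Lib/Minkowski.hom_eq_one_of_unramified_everywhere` for the cyclotomic character
modulo the image of inertia; inertia at `q ≠ p` fixes `μ_p`.] -/
def Stmt_CYC : Prop :=
  ∀ (p : ℕ), p.Prime → ∀ A : ValuationSubring Qb, A.LiesOverPrime p →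
    ∀ a : ℕ, ¬ p ∣ a → ∃ σ ∈ A.inertiaSubgroupIn ℚ, ∀ μ : Qb, μ ^ p = 1 → σ μ = μ ^ a

end Fermat.Agent.Tate.T7
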