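/-
Tate T7, package CYC (helper52): the inertia group at `A ∣ p` surjects onto `Gal(ℚ(μ_p)/ℚ)`.

* `exists_algEquiv_pow` : for `p ∤ a` some `σ₀ ∈ Gal(Q̄/ℚ)` acts on `μ_p` by `μ ↦ μ ^ a`
  (Dirichlet: a prime `ℓ ≡ a mod p`, and a Frobenius element at `ℓ`).
* `exists_inertia_eqOn_cyclotomic` : every `σ₀` agrees on `ℚ(μ_p)` with an element of the inertia
  group at `A ∣ p`  (`ℚ(ζ_p)` is totally ramified at `p`: on `ℤ[ζ_p]` every automorphism is
  congruent to the identity modulo the prime above `p`; then `Lib/InertiaLift`).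
* `stmt_CYC : Stmt_CYC`.
-/
import Fermat.Agent.Tate.T7.Defs
import Fermat.Agent.R.H2_Cyc

set_option autoImplicit false
set_option linter.style.haveILetI false

namespace Fermat.Agent.Tate.T7.H52

open Fermat.Agent.R.H89 Fermat.Agent.R.H2

/-- For `p ∤ a` some element of `Gal(Q̄/ℚ)` acts on the `p`-th roots of unity by `μ ↦ μ ^ a`. -/
theorem exists_algEquiv_pow (p : ℕ) (hp : p.Prime) (a : ℕ) (ha : ¬ p ∣ a) :
    ∃ σ₀ : Qb ≃ₐ[ℚ] Qb, ∀ μ : Qb, μ ^ p = 1 → σ₀ μ = μ ^ a := by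
  have hcop : a.Coprime p := ((Nat.Prime.coprime_iff_not_dvd hp).2 ha).symm
  obtain ⟨ℓ, hℓgt, hℓ, hmod⟩ := Nat.forall_exists_prime_gt_and_modEq p hp.ne_zero hcop
  obtain ⟨A, σ, hA, hσ⟩ := Fermat.Agent.Lib.FrobExists.exists_place_and_frobenius ℓ hℓ
  have hpℓ : p.Coprime ℓ := (Nat.coprime_primes hp hℓ).2 (ne_of_lt hℓgt)
  refine ⟨σ, fun μ hμ => ?_⟩
  rw [Fermat.Agent.R.H2.stmt_FrobCyc ℓ hℓ A hA σ hσ p hpℓ μ hμ]
  have hfo : IsOfFinOrder μ := isOfFinOrder_iff_pow_eq_one.2 ⟨p, hp.pos, hμ⟩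
  exact hfo.pow_eq_pow_iff_modEq.2 (Nat.ModEq.of_dvd (orderOf_dvd_of_pow_eq_one hμ) hmod)

/-- Every element of `Gal(Q̄/ℚ)` agrees on the `p`-th roots of unity with an element of the
inertia group of any valuation subring over `p`. -/
theorem exists_inertia_eqOn_cyclotomic (p : ℕ) (hp : p.Prime) (P : ValuationSubring Qb)
    (hP : P.LiesOverPrime p) (σ₀ : Qb ≃ₐ[ℚ] Qb) :
    ∃ σ ∈ P.inertiaSubgroupIn ℚ, ∀ μ : Qb, μ ^ p = 1 → σ μ = σ₀ μ := by
  haveI : Fact p.Prime := ⟨hp⟩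
  haveI : NeZero p := ⟨hp.ne_zero⟩
  haveI : Algebra.IsAlgebraic ℚ (AlgebraicClosure ℚ) := AlgebraicClosure.isAlgebraic ℚ
  haveI : Algebra.IsIntegral ℚ (AlgebraicClosure ℚ) := inferInstance
  obtain ⟨ζ, hζ⟩ := HasEnoughRootsOfUnity.exists_primitiveRoot (AlgebraicClosure ℚ) p
  have hpP : (p : AlgebraicClosure ℚ) ∈ P.nonunits := hP
  have hζp : ζ ^ p = 1 := hζ.pow_eq_one
  have hζA : ζ ∈ P := by
    rw [← P.valuation_le_one_iff, h89_valuation_eq_one_of_pow_eq_one P hp.ne_zero hζp]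
  have hσζp : (σ₀ ζ) ^ p = 1 := by rw [← map_pow, hζp, map_one]
  have hσζ : σ₀ ζ - ζ ∈ P.nonunits := by
    have h1 := sub_one_mem_nonunits_of_pow_eq_one P p hpP hσζp
    have h2 := sub_one_mem_nonunits_of_pow_eq_one P p hpP hζp
    have h3 : σ₀ ζ - ζ = (σ₀ ζ - 1) + -(ζ - 1) := by ring
    rw [h3, P.mem_nonunits_iff]
    refine Valuation.map_add_lt _ (P.mem_nonunits_iff.1 h1) ?_
    rw [Valuation.map_neg]
    exact P.mem_nonunits_iff.1 h2
  -- the cyclotomic field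
  let F : IntermediateField ℚ (AlgebraicClosure ℚ) := IntermediateField.adjoin ℚ {ζ}
  haveI hcyc : IsCyclotomicExtension {p} ℚ F :=
    hζ.intermediateField_adjoin_isCyclotomicExtension ℚ
  haveI : IsGalois ℚ F := IsCyclotomicExtension.isGalois {p} ℚ F
  haveI : Normal ℚ F := inferInstance
  let ζ' : F := ⟨ζ, IntermediateField.mem_adjoin_simple_self ℚ ζ⟩
  have hζ' : IsPrimitiveRoot ζ' p :=
    IsPrimitiveRoot.of_map_of_injective (f := algebraMap F (AlgebraicClosure ℚ))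
      hζ (algebraMap F (AlgebraicClosure ℚ)).injective
  haveI hic : IsIntegralClosure (Algebra.adjoin ℤ ({ζ'} : Set F)) ℤ F :=
    IsCyclotomicExtension.Rat.isIntegralClosure_adjoin_singleton_of_prime hζ'
  have hint : ∀ x : AlgebraicClosure ℚ, x ∈ F → IsIntegral ℤ x →
      σ₀ x - x ∈ P.nonunits := by
    intro x hxF hxi
    have hxi' : IsIntegral ℤ (⟨x, hxF⟩ : F) := by
      have h1 : IsIntegral ℤ (algebraMap F (AlgebraicClosure ℚ) ⟨x, hxF⟩) := hxi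
      exact (isIntegral_algebraMap_iff (algebraMap F (AlgebraicClosure ℚ)).injective).1 h1
    obtain ⟨y, hy⟩ := (IsIntegralClosure.isIntegral_iff
      (A := Algebra.adjoin ℤ ({ζ'} : Set F))).1 hxi'
    have hmem' : (⟨x, hxF⟩ : F) ∈ Algebra.adjoin ℤ ({ζ'} : Set F) := by
      rw [← hy]; exact y.2
    have hmem : x ∈ Algebra.adjoin ℤ ({ζ} : Set (AlgebraicClosure ℚ)) := by
      have h1 : (F.val.restrictScalars ℤ) ⟨x, hxF⟩ ∈
          (Algebra.adjoin ℤ ({ζ'} : Set F)).map (F.val.restrictScalars ℤ) :=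
        ⟨_, hmem', rfl⟩
      rw [AlgHom.map_adjoin, Set.image_singleton] at h1
      exact h1
    exact (sub_mem_nonunits_of_mem_adjoin P (σ₀ : AlgebraicClosure ℚ →+* AlgebraicClosure ℚ)
      hζA hσζ hmem).2
  obtain ⟨σ, hσI, hσF⟩ :=
    Fermat.Agent.Lib.InertiaLift.exists_mem_inertiaSubgroupIn_eqOn p hp P hP F σ₀ hint
  refine ⟨σ, hσI, fun μ hμ => ?_⟩
  obtain ⟨k, -, rfl⟩ := hζ.eq_pow_of_pow_eq_one hμ
  exact hσF _ (pow_mem (IntermediateField.mem_adjoin_simple_self ℚ ζ) k)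

/-- **T7-CYC**: the inertia group at `A ∣ p` surjects onto `Gal(ℚ(μ_p)/ℚ)`. -/
theorem stmt_CYC : Stmt_CYC := by
  intro p hp A hA a ha
  obtain ⟨σ₀, hσ₀⟩ := exists_algEquiv_pow p hp a ha
  obtain ⟨σ, hσI, hσ⟩ := exists_inertia_eqOn_cyclotomic p hp A hA σ₀
  exact ⟨σ, hσI, fun μ hμ => (hσ μ hμ).trans (hσ₀ μ hμ)⟩

end Fermat.Agent.Tate.T7.H52
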