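/-
Tate T7, package LOCbad (helper14): multiplicative reduction at an odd prime `p` is of ordinary
type: the component homomorphism of `T6.stmt_LOC` is invariant under inertia and does not kill
`E[p]`.
-/
import Fermat.Agent.Tate.T7.Defs
import Fermat.Agent.Tate.T6.Loc
import Fermat.Agent.Tate.T6.H01_Asm

set_option autoImplicit false

open WeierstrassCurve WeierstrassCurve.Affine

namespace Fermat.Agent.Tate.T7.H14

open Fermat.Agent.Tate Fermat.Agent.S52.H5

/-- **T7-LOCbad.** -/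
theorem stmt_LOCbad : Stmt_LOCbad := by
  intro W hΔ hss p hp hp2 hbad A hA
  have hdvd : (p : ℤ) ∣ W.Δ := by
    by_contra h
    exact hbad h
  have hc4 : ¬ (p : ℤ) ∣ W.c₄ := hss p hp hdvd
  have hpv : A.valuation ((p : ℕ) : Qb) < 1 := (A.mem_nonunits_iff).1 hA
  have hΔ0 : (EQ W).Δ ≠ 0 := by
    rw [EQ_Δ]; exact_mod_cast hΔ
  have hΔv : A.valuation (EQ W).Δ < 1 := by
    rw [EQ_Δ]; exact Fermat.Agent.S05.H15.valuation_intCast_lt_one_of_dvd hA hdvd
  have hc₄v : A.valuation (EQ W).c₄ = 1 := by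
    rw [EQ_c₄]; exact Fermat.Agent.S05.H15.valuation_intCast_eq_one_of_not_dvd hp hA hc4
  obtain ⟨G, instG, c, ha, -, -, hd⟩ :=
    Fermat.Agent.Tate.T6.stmt_LOC Qb A p hp hp2 hpv (EQ W) (EQ_intCoeff W A) hΔ0 hΔv hc₄v
  refine ⟨G, instG, c, ha, fun σ hσ P => ?_⟩
  exact hd _ _ (Fermat.Agent.Tate.T6.H01.decompOn_galAdd_of_inertia W A σ hσ)
    (inertiaOn_galAdd W A σ hσ).res P

end Fermat.Agent.Tate.T7.H14
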