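/-
Tate T7 (helper52): congruence of field elements up to principal units of a valuation,
`Cong v a b :↔ v (a - b) < v b`  ("`a / b ≡ 1` modulo the maximal ideal"), and the action of an
inertial automorphism on ratios of elements of equal valuation.  Mathlib only.
-/
import Mathlib.RingTheory.Valuation.ValuationSubring
import Mathlib.Algebra.Algebra.Equiv

set_option autoImplicit false

namespace Fermat.Agent.Tate.T7.H52

section Cong

variable {L : Type*} [Field L] {Γ₀ : Type*} [LinearOrderedCommGroupWithZero Γ₀]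
  (v : Valuation L Γ₀)

/-- `a ≡ b` modulo `b · 𝔪`. -/
def Cong (a b : L) : Prop := v (a - b) < v b

variable {v} {a b c d : L}

theorem Cong.val_ne_zero (h : Cong v a b) : v b ≠ 0 :=
  ne_of_gt (lt_of_le_of_lt zero_le h)

theorem Cong.ne_zero_right (h : Cong v a b) : b ≠ 0 :=
  (v.ne_zero_iff).1 h.val_ne_zero

theorem Cong.val_eq (h : Cong v a b) : v a = v b := by
  have e : a = (a - b) + b := by ring
  rw [e]
  exact v.map_add_eq_of_lt_right h

theorem Cong.ne_zero_left (h : Cong v a b) : a ≠ 0 :=
  (v.ne_zero_iff).1 (h.val_eq ▸ h.val_ne_zero)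

theorem Cong.refl (hb : b ≠ 0) : Cong v b b := by
  unfold Cong
  rw [sub_self, map_zero]
  exact zero_lt_iff.2 ((v.ne_zero_iff).2 hb)

theorem Cong.symm (h : Cong v a b) : Cong v b a := by
  unfold Cong
  rw [v.map_sub_swap, h.val_eq]
  exact h

theorem Cong.trans (h1 : Cong v a b) (h2 : Cong v b c) : Cong v a c := by
  unfold Cong
  have e : a - c = (a - b) + (b - c) := by ring
  rw [e]
  refine v.map_add_lt ?_ h2
  have h3 : v (a - b) < v b := h1
  rwa [h2.val_eq] at h3

theorem Cong.mul (h1 : Cong v a b) (h2 : Cong v c d) : Cong v (a * c) (b * d) := by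
  unfold Cong
  have e : a * c - b * d = (a - b) * c + b * (c - d) := by ring
  have hb : 0 < v b := zero_lt_iff.2 h1.val_ne_zero
  have hd : 0 < v d := zero_lt_iff.2 h2.val_ne_zero
  rw [e, map_mul v b d]
  refine v.map_add_lt ?_ ?_
  · rw [map_mul, h2.val_eq]
    exact (mul_lt_mul_iff_left₀ hd).2 h1
  · rw [map_mul]
    exact (mul_lt_mul_iff_right₀ hb).2 h2

theorem Cong.pow (h : Cong v a b) (n : ℕ) : Cong v (a ^ n) (b ^ n) := by
  induction n with
  | zero => simpa using Cong.refl (v := v) (one_ne_zero : (1 : L) ≠ 0)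
  | succ n ih => rw [pow_succ, pow_succ]; exact ih.mul h

theorem Cong.of_mul_right (hc : c ≠ 0) (h : Cong v (a * c) (b * c)) : Cong v a b := by
  unfold Cong at *
  have hc' : 0 < v c := zero_lt_iff.2 ((v.ne_zero_iff).2 hc)
  rw [← sub_mul, map_mul, map_mul] at h
  exact (mul_lt_mul_iff_left₀ hc').1 h

end Cong

section Inertial

variable {K L : Type*} [Field K] [Field L] [Algebra K L]

/-- An inertial automorphism `σ` (trivial on the residue field) acts
on ratios of elements of equal valuation trivially modulo the maximal ideal: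
`σ a · b ≡ a · σ b`. -/
theorem cong_inertial (A : ValuationSubring L) (σ : L ≃ₐ[K] L)
    (hin : ∀ x, A.valuation x ≤ 1 → A.valuation (σ x - x) < 1)
    {a b : L} (hb : b ≠ 0) (hab : A.valuation a = A.valuation b) :
    Cong A.valuation (σ a * b) (a * σ b) := by
  unfold Cong
  have hvb : A.valuation b ≠ 0 := (A.valuation.ne_zero_iff).2 hb
  have hσb : σ b ≠ 0 := fun h => hb (by simpa using h)
  have hu : A.valuation (a / b) ≤ 1 := by
    rw [map_div₀, hab, div_self hvb]
  have h1 := hin (a / b) hu
  have e : σ a * b - a * σ b = (σ (a / b) - a / b) * (b * σ b) := by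
    rw [map_div₀]
    field_simp
  have hpos : 0 < A.valuation (b * σ b) := by
    rw [zero_lt_iff, A.valuation.ne_zero_iff]
    exact mul_ne_zero hb hσb
  have e2 : A.valuation (a * σ b) = A.valuation (b * σ b) := by
    rw [map_mul, map_mul, hab]
  rw [e, map_mul, e2]
  calc A.valuation (σ (a / b) - a / b) * A.valuation (b * σ b)
      < 1 * A.valuation (b * σ b) := (mul_lt_mul_iff_left₀ hpos).2 h1
    _ = A.valuation (b * σ b) := one_mul _

end Inertial

end Fermat.Agent.Tate.T7.H52
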