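/-
Tate T7, package LOCss (helper52): assembly
`stmt_LOCss_of : Stmt_RAD → Stmt_SSval → Stmt_SSsep → Stmt_SSmul → Stmt_LOCss`.

If all of `E[p]` lies in the kernel of reduction at `A ∣ p` (`p` odd), then
* inertia at `A` acts on `E[p]` through a group commutative up to sign: for `σ, τ ∈ I_A` and
  `x = x(P)`, `στ(x) · x ≡ τ(x) σ(x) ≡ τσ(x) · x` (ratios of `x`-coordinates are units, on which
  inertia acts trivially modulo `𝔪_A`), so `x(στP) = x(τσP)` by `SSsep`;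
* some `τ ∈ I_A` has a non-scalar square: `RAD` gives `τ` moving `z = x₀^(p-1)` modulo `z 𝔪_A`
  (`|z|^((p+1)/2) = |p|⁻¹` by `SSval`); if `τ² = n` on `E[p]` then `τ²(x₀) n² ≡ x₀` (`SSmul`) and
  `τ²(x₀) x₀ ≡ τ(x₀)²`, so `(τ(x₀) n)² ≡ x₀²`, hence `τ(z) ≡ τ(z) n^(p-1) ≡ z`: contradiction.
-/
import Fermat.Agent.Tate.T7.Defs
import Fermat.Agent.Tate.T7.H52_Cong
import Fermat.Agent.S05.H37_Inertia

set_option autoImplicit false
set_option linter.style.haveILetI false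

open WeierstrassCurve WeierstrassCurve.Affine

namespace Fermat.Agent.Tate.T7.H52

open Fermat.Agent.S58.H99 (TorsW finrank_torsW)

/-- The Galois action commutes with multiplication by `n`. -/
theorem galois_nsmul (W : WeierstrassCurve ℤ) (σ : GQ) (n : ℕ) (P : EQbar W) :
    σ • (n • P) = n • (σ • P) :=
  map_nsmul (DistribSMul.toAddMonoidHom (EQbar W) σ) n P

/-- There is a nonzero `p`-torsion point. -/
theorem exists_torsion_point (W : WeierstrassCurve ℤ) (hΔ : W.Δ ≠ 0) (p : ℕ) [Fact p.Prime] :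
    ∃ (x y : Qb) (h : ((W.map (Int.castRingHom ℚ)).toAffine⁄Qb).Nonsingular x y),
      p • (Point.some x y h : EQbar W) = 0 := by
  have hfr := finrank_torsW W hΔ p
  haveI : Nontrivial (TorsW W p) := by
    apply Module.nontrivial_of_finrank_pos (R := ZMod p)
    rw [hfr]
    norm_num
  obtain ⟨⟨P, hP⟩, hne⟩ := exists_ne (0 : TorsW W p)
  have hP0 : P ≠ 0 := fun h => hne (Subtype.ext h)
  have hPp : p • P = 0 := by
    have := (Submodule.mem_torsionBy_iff _ _).1 hP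
    rwa [natCast_zsmul] at this
  rcases P with _ | ⟨x, y, h⟩
  · exact absurd rfl hP0
  · exact ⟨x, y, h, hPp⟩

/-- `(p - 1) * ((p + 1) / 2) = (p ^ 2 - 1) / 2` for odd `p`. -/
theorem exp_identity {p : ℕ} (hodd : Odd p) : (p - 1) * ((p + 1) / 2) = (p ^ 2 - 1) / 2 := by
  obtain ⟨k, rfl⟩ := hodd
  have h1 : (2 * k + 1 + 1) / 2 = k + 1 := by omega
  have h2 : 2 * k + 1 - 1 = 2 * k := by omega
  have h3 : (2 * k + 1) ^ 2 - 1 = 2 * (2 * k * (k + 1)) := by
    have : (2 * k + 1) ^ 2 = 2 * (2 * k * (k + 1)) + 1 := by ring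
    omega
  rw [h1, h2, h3, Nat.mul_div_cancel_left _ (by norm_num : 0 < 2)]

/-- A natural number `0 < m < p` satisfies `m ^ (p - 1) ≡ 1` at a valuation subring over `p`. -/
theorem cong_pow_pred_one {L : Type*} [Field L] (A : ValuationSubring L) {p : ℕ} (hp : p.Prime)
    (hA : A.valuation (p : L) < 1) {m : ℕ} (hm0 : 0 < m) (hmp : m < p) :
    Cong A.valuation ((m : L) ^ (p - 1)) 1 := by
  haveI : Fact p.Prime := ⟨hp⟩
  unfold Cong
  rw [map_one]
  have hmz : (m : ZMod p) ≠ 0 := by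
    rw [Ne, ZMod.natCast_eq_zero_iff]
    exact fun hdvd => absurd (Nat.le_of_dvd hm0 hdvd) (not_le.2 hmp)
  have hflt : ((m : ZMod p)) ^ (p - 1) = 1 := ZMod.pow_card_sub_one_eq_one hmz
  have hdvd : (p : ℤ) ∣ (m : ℤ) ^ (p - 1) - 1 := by
    rw [← ZMod.intCast_zmod_eq_zero_iff_dvd]
    push_cast
    rw [hflt, sub_self]
  obtain ⟨t, ht⟩ := hdvd
  have e : (m : L) ^ (p - 1) - 1 = (p : L) * (t : L) := by
    have := congrArg (fun z : ℤ => (z : L)) ht
    simpa using this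
  have ht1 : A.valuation (t : L) ≤ 1 := by
    rw [A.valuation_le_one_iff]
    exact intCast_mem A t
  rw [e, map_mul]
  calc A.valuation (p : L) * A.valuation (t : L) ≤ A.valuation (p : L) * 1 := by
        gcongr
    _ < 1 := by rw [mul_one]; exact hA

/-- **T7-LOCss** (assembly). -/
theorem stmt_LOCss_of (hRAD : Stmt_RAD) (hSSval : Stmt_SSval) (hSSsep : Stmt_SSsep)
    (hSSmul : Stmt_SSmul) : Stmt_LOCss := by
  intro W hΔ p hp hp2 A hA hker
  haveI : Fact p.Prime := ⟨hp⟩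
  haveI : Algebra.IsAlgebraic ℚ Qb := AlgebraicClosure.isAlgebraic ℚ
  have hI : ∀ σ ∈ A.inertiaSubgroupIn ℚ,
      (∀ x : Qb, A.valuation (σ x) = A.valuation x) ∧
        ∀ x : Qb, A.valuation x ≤ 1 → A.valuation (σ x - x) < 1 :=
    fun σ hσ => Fermat.Agent.S05.H37.inertia_facts A hσ
  -- nonvanishing of `x`-coordinates
  have hx0 : ∀ (x y : Qb) (h : ((W.map (Int.castRingHom ℚ)).toAffine⁄Qb).Nonsingular x y),
      p • (Point.some x y h : EQbar W) = 0 → x ≠ 0 := by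
    intro x y h hP hx
    have h1 := hSSval W hΔ p hp hp2 A hA hker x y h hP
    have hN : (p ^ 2 - 1) / 2 ≠ 0 := by
      rw [← exp_identity (hp.odd_of_ne_two hp2)]
      have h2 : 2 < p := lt_of_le_of_ne hp.two_le (Ne.symm hp2)
      have h3 : 1 ≤ (p + 1) / 2 := by omega
      have h4 : 1 ≤ p - 1 := by omega
      exact Nat.mul_ne_zero (by omega) (by omega)
    rw [hx, zero_pow hN, zero_mul, map_zero] at h1
    exact zero_ne_one h1
  refine ⟨?_, ?_⟩
  · -- commutation up to sign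
    intro σ hσ τ hτ P hP
    rcases P with _ | ⟨x, y, h⟩
    · left; rfl
    obtain ⟨hσval, hσin⟩ := hI σ hσ
    obtain ⟨hτval, hτin⟩ := hI τ hτ
    have hx := hx0 x y h hP
    -- the four points
    obtain ⟨h₁, e₁⟩ : ∃ h' : ((W.map (Int.castRingHom ℚ)).toAffine⁄Qb).Nonsingular
        (σ (τ x)) (σ (τ y)),
        σ • τ • (Point.some x y h : EQbar W) = Point.some (σ (τ x)) (σ (τ y)) h' := ⟨_, rfl⟩
    obtain ⟨h₂, e₂⟩ : ∃ h' : ((W.map (Int.castRingHom ℚ)).toAffine⁄Qb).Nonsingular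
        (τ (σ x)) (τ (σ y)),
        τ • σ • (Point.some x y h : EQbar W) = Point.some (τ (σ x)) (τ (σ y)) h' := ⟨_, rfl⟩
    have t₁ : p • (Point.some (σ (τ x)) (σ (τ y)) h₁ : EQbar W) = 0 := by
      rw [← e₁, ← galois_nsmul, ← galois_nsmul, hP]
      rfl
    have t₂ : p • (Point.some (τ (σ x)) (τ (σ y)) h₂ : EQbar W) = 0 := by
      rw [← e₂, ← galois_nsmul, ← galois_nsmul, hP]
      rfl
    have c1 : Cong A.valuation (σ (τ x) * x) (τ x * σ x) :=
      cong_inertial A σ hσin hx (hτval x)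
    have c2 : Cong A.valuation (τ (σ x) * x) (σ x * τ x) :=
      cong_inertial A τ hτin hx (hσval x)
    have c3 : Cong A.valuation (σ (τ x) * x) (τ (σ x) * x) := by
      refine c1.trans ?_
      rw [mul_comm (τ x) (σ x)]
      exact c2.symm
    have c4 : Cong A.valuation (σ (τ x)) (τ (σ x)) := c3.of_mul_right hx
    have c5 : A.valuation (σ (τ x) - τ (σ x)) < A.valuation (σ (τ x)) := by
      rw [c4.val_eq]
      exact c4
    have hxx : σ (τ x) = τ (σ x) :=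
      hSSsep W hΔ p hp hp2 A hA hker _ _ h₁ _ _ h₂ t₁ t₂ c5
    rw [e₁, e₂]
    rcases Y_eq_of_X_eq h₁.1 h₂.1 hxx with hy | hy
    · left
      simp only [hxx, hy]
    · right
      rw [Point.neg_some]
      simp only [hxx, hy]
  · -- a non-scalar square
    by_contra hcon
    push Not at hcon
    obtain ⟨x₀, y₀, h₀, hP₀⟩ := exists_torsion_point W hΔ p
    have hx := hx0 x₀ y₀ h₀ hP₀
    have hodd : Odd p := hp.odd_of_ne_two hp2
    have h2p : 2 < p := lt_of_le_of_ne hp.two_le (Ne.symm hp2)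
    have hz : A.valuation ((x₀ ^ (p - 1)) ^ ((p + 1) / 2) * (p : Qb)) = 1 := by
      rw [← pow_mul, exp_identity hodd]
      exact hSSval W hΔ p hp hp2 A hA hker x₀ y₀ h₀ hP₀
    have he2 : 2 ≤ (p + 1) / 2 := by omega
    have hpe : ¬ p ∣ (p + 1) / 2 := by
      intro hdvd
      have := Nat.le_of_dvd (by omega) hdvd
      omega
    obtain ⟨τ, hτ, hmove⟩ := hRAD p hp A hA (x₀ ^ (p - 1)) ((p + 1) / 2) he2 hpe hz
    apply hmove
    obtain ⟨hτval, hτin⟩ := hI τ hτ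
    obtain ⟨n, hn⟩ := hcon τ hτ
    have hn₀ := hn (Point.some x₀ y₀ h₀) hP₀
    obtain ⟨h₁, e₁⟩ : ∃ h' : ((W.map (Int.castRingHom ℚ)).toAffine⁄Qb).Nonsingular
        (τ (τ x₀)) (τ (τ y₀)),
        τ • τ • (Point.some x₀ y₀ h₀ : EQbar W) = Point.some (τ (τ x₀)) (τ (τ y₀)) h' := ⟨_, rfl⟩
    -- reduce `n` modulo `p`
    have hmod : (n % p) • (Point.some x₀ y₀ h₀ : EQbar W) = n • Point.some x₀ y₀ h₀ := by
      conv_rhs => rw [← Nat.mod_add_div n p]
      rw [add_nsmul, mul_nsmul, hP₀, nsmul_zero, add_zero]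
    have hm : (n % p) • (Point.some x₀ y₀ h₀ : EQbar W) = Point.some (τ (τ x₀)) (τ (τ y₀)) h₁ := by
      rw [hmod, ← hn₀, e₁]
    have hm0 : 0 < n % p := by
      rcases Nat.eq_zero_or_pos (n % p) with h0 | h0
      · rw [h0, zero_nsmul] at hm
        exact absurd hm.symm (Point.some_ne_zero h₁)
      · exact h0
    have hmp : n % p < p := Nat.mod_lt _ hp.pos
    set m := n % p with hmdef
    have hmL : (m : Qb) ≠ 0 := by
      exact_mod_cast hm0.ne'
    have cmul : Cong A.valuation (τ (τ x₀) * (m : Qb) ^ 2) x₀ :=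
      hSSmul W hΔ p hp hp2 A hA hker x₀ y₀ h₀ hP₀ m hm0 hmp _ _ h₁ hm
    have cin : Cong A.valuation (τ (τ x₀) * x₀) (τ x₀ * τ x₀) :=
      cong_inertial A τ hτin hx (hτval x₀)
    -- `(τ x₀)² m² ≡ x₀²`
    have c1 : Cong A.valuation (τ x₀ ^ 2 * (m : Qb) ^ 2) (x₀ ^ 2) := by
      have a1 : Cong A.valuation (τ x₀ * τ x₀ * (m : Qb) ^ 2) (τ (τ x₀) * x₀ * (m : Qb) ^ 2) :=
        cin.symm.mul (Cong.refl (pow_ne_zero 2 hmL))
      have a2 : Cong A.valuation (τ (τ x₀) * (m : Qb) ^ 2 * x₀) (x₀ * x₀) :=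
        cmul.mul (Cong.refl hx)
      have e1 : τ x₀ ^ 2 * (m : Qb) ^ 2 = τ x₀ * τ x₀ * (m : Qb) ^ 2 := by ring
      have e2 : τ (τ x₀) * x₀ * (m : Qb) ^ 2 = τ (τ x₀) * (m : Qb) ^ 2 * x₀ := by ring
      have e3 : x₀ ^ 2 = x₀ * x₀ := by ring
      rw [e1, e3]
      rw [e2] at a1
      exact a1.trans a2
    obtain ⟨k, hk⟩ := hodd
    have hk2 : p - 1 = 2 * k := by omega
    have c2 := c1.pow k
    have e4 : (τ x₀ ^ 2 * (m : Qb) ^ 2) ^ k = τ (x₀ ^ (p - 1)) * (m : Qb) ^ (p - 1) := by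
      rw [map_pow, hk2, mul_pow, ← pow_mul, ← pow_mul]
    have e5 : (x₀ ^ 2) ^ k = x₀ ^ (p - 1) := by
      rw [hk2, ← pow_mul]
    rw [e4, e5] at c2
    have hτz : τ (x₀ ^ (p - 1)) ≠ 0 := by
      rw [map_pow]
      exact pow_ne_zero _ (fun h => hx (by simpa using h))
    have c3 : Cong A.valuation (τ (x₀ ^ (p - 1)) * (m : Qb) ^ (p - 1)) (τ (x₀ ^ (p - 1)) * 1) :=
      (Cong.refl hτz).mul (cong_pow_pred_one A hp (A.mem_nonunits_iff.mp hA) hm0 hmp)
    rw [mul_one] at c3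
    exact c3.symm.trans c2

end Fermat.Agent.Tate.T7.H52
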