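/-
Tate T7, package LOCgood (helper7): good reduction at `p` with a `p`-torsion point outside the
kernel of reduction is of ordinary type (the homomorphism is the reduction map).
-/
import Fermat.Agent.Tate.T7.Defs
import Fermat.Agent.Tate.H4_Unram

set_option autoImplicit false

namespace Fermat.Agent.Tate.T7.H7

open WeierstrassCurve WeierstrassCurve.Affine IsLocalRing
open Fermat.Agent.Lib.EllFinite Fermat.Agent.Lib.EllFinite.H4 Fermat.Agent.Lib.EllFinite.H46
open Fermat.Agent.Tate.H4

/-- **LOCgood**. -/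
theorem stmt_LOCgood : Stmt_LOCgood := by
  classical
  intro W hΔ p hp _ hgood A hA hnot
  have hΔ' : (Ek A (WA W A)).Δ ≠ 0 := Ek_WA_Δ_ne_zero W A hp hA hgood
  refine ⟨_, inferInstance, redQ W A hΔ', ?_, fun σ hσ P => redQ_inertia hΔ' hσ P⟩
  unfold AllInKer at hnot
  push Not at hnot
  obtain ⟨x, y, h, hP, hx⟩ := hnot
  refine ⟨.some x y h, hP, ?_⟩
  intro h0
  rw [redQ_apply, pointCongr_some, red_eq_zero_iff] at h0
  rcases h0 with h0 | ⟨x', y', h', e, hx'⟩
  · exact Point.some_ne_zero _ h0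
  · obtain ⟨rfl, rfl⟩ := Point.some.inj e
    exact absurd ((A.valuation_le_one_iff x).mpr hx) (not_le.mpr hx')

end Fermat.Agent.Tate.T7.H7
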