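/-
Tate T7, package ALG (helper7): a two-dimensional representation `r` of a group `G` which is
irreducible over an extension `K`, but whose restriction to a subgroup `H` of index two has a
stable line over `K`, is "dihedral": in a suitable basis `H` acts by diagonal and `G ∖ H` by
antidiagonal matrices.  Consequences `KL1`, `KL2`, `KL3` (plan NOTES/plan/Tate_T7.md).
-/
import Mathlib

set_option autoImplicit false

open TensorProduct

namespace Fermat.Agent.Tate.T7.H7

/-! ### `2 × 2` matrices -/

section Mat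

variable {K : Type*} [Field K]

/-- A diagonal or antidiagonal invertible matrix `X` with `(X - a)² = 0` is the scalar `a`. -/
theorem mat_eq_scalar_of_sq (h2 : (2 : K) ≠ 0) (X : Matrix (Fin 2) (Fin 2) K) (a : K)
    (hX : (X 0 1 = 0 ∧ X 1 0 = 0) ∨ (X 0 0 = 0 ∧ X 1 1 = 0)) (hdet : X.det ≠ 0)
    (hsq : (X - a • (1 : Matrix (Fin 2) (Fin 2) K)) * (X - a • 1) = 0) : X = a • 1 := by
  have e00 := congrFun (congrFun hsq 0) 0
  have e01 := congrFun (congrFun hsq 0) 1
  have e11 := congrFun (congrFun hsq 1) 1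
  simp only [Matrix.mul_apply, Fin.sum_univ_two, Matrix.sub_apply, Matrix.smul_apply,
    Matrix.one_apply_eq, Matrix.one_apply_ne, ne_eq, zero_ne_one, one_ne_zero, not_false_eq_true,
    smul_eq_mul, mul_one, mul_zero, sub_zero, Matrix.zero_apply] at e00 e01 e11
  rw [Matrix.det_fin_two] at hdet
  rcases hX with ⟨h01, h10⟩ | ⟨h00, h11⟩
  · rw [h01, h10] at e00 e11
    have a0 : X 0 0 = a := by
      have : (X 0 0 - a) * (X 0 0 - a) = 0 := by linear_combination e00
      exact sub_eq_zero.mp (mul_self_eq_zero.mp this)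
    have a1 : X 1 1 = a := by
      have : (X 1 1 - a) * (X 1 1 - a) = 0 := by linear_combination e11
      exact sub_eq_zero.mp (mul_self_eq_zero.mp this)
    ext i j
    fin_cases i <;> fin_cases j <;> simp [a0, a1, h01, h10]
  · exfalso
    rw [h00, h11] at e01 hdet
    have hc : X 0 1 ≠ 0 := fun h => hdet (by rw [h]; ring)
    have ha : a = 0 := by
      have : (2 * a) * X 0 1 = 0 := by linear_combination -e01
      rcases mul_eq_zero.mp this with h | h
      · exact (mul_eq_zero.mp h).resolve_left h2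
      · exact absurd h hc
    rw [h00, ha] at e00
    apply hdet
    linear_combination -e00

/-- An antidiagonal matrix squares to a scalar. -/
theorem mat_anti_sq (X : Matrix (Fin 2) (Fin 2) K) (h00 : X 0 0 = 0) (h11 : X 1 1 = 0) :
    X * X = (-X.det) • (1 : Matrix (Fin 2) (Fin 2) K) := by
  ext i j
  fin_cases i <;> fin_cases j <;>
    simp [Matrix.mul_apply, Fin.sum_univ_two, Matrix.det_fin_two, h00, h11]
  all_goals ring

/-- If an invertible antidiagonal `X` and a diagonal `Y` commute up to a nilpotent, or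
anticommute, then `Y²` is a scalar. -/
theorem mat_diag_sq_scalar (X Y : Matrix (Fin 2) (Fin 2) K) (h00 : X 0 0 = 0) (h11 : X 1 1 = 0)
    (hdet : X.det ≠ 0) (k01 : Y 0 1 = 0) (k10 : Y 1 0 = 0)
    (h : (X * Y - Y * X).det = 0 ∨ X * Y = -(Y * X)) :
    Y * Y = (Y 0 0 * Y 0 0) • (1 : Matrix (Fin 2) (Fin 2) K) := by
  rw [Matrix.det_fin_two, h00, h11] at hdet
  have hc : X 0 1 ≠ 0 := fun h => hdet (by rw [h]; ring)
  have hd : X 1 0 ≠ 0 := fun h => hdet (by rw [h]; ring)
  have key : Y 1 1 * Y 1 1 = Y 0 0 * Y 0 0 := by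
    rcases h with h | h
    · rw [Matrix.det_fin_two] at h
      simp only [Matrix.mul_apply, Fin.sum_univ_two, Matrix.sub_apply, h00, h11, k01, k10,
        mul_zero, zero_mul, add_zero, zero_add, sub_self] at h
      have h' : X 0 1 * X 1 0 * ((Y 1 1 - Y 0 0) * (Y 1 1 - Y 0 0)) = 0 := by
        linear_combination h
      have h'' : Y 1 1 - Y 0 0 = 0 :=
        mul_self_eq_zero.mp ((mul_eq_zero.mp h').resolve_left (mul_ne_zero hc hd))
      rw [sub_eq_zero.mp h'']
    · have e := congrFun (congrFun h 0) 1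
      simp only [Matrix.mul_apply, Fin.sum_univ_two, Matrix.neg_apply, h00, k01,
        mul_zero, zero_mul, add_zero, zero_add] at e
      have h' : X 0 1 * (Y 1 1 + Y 0 0) = 0 := by linear_combination e
      have h'' : Y 1 1 = -Y 0 0 :=
        eq_neg_of_add_eq_zero_left ((mul_eq_zero.mp h').resolve_left hc)
      rw [h'']; ring
  ext i j
  fin_cases i <;> fin_cases j <;>
    simp [Matrix.mul_apply, Fin.sum_univ_two, k01, k10, key]

end Mat

/-! ### The dihedral model -/

section Model

variable {F : Type*} [Field F] {V : Type*} [AddCommGroup V] [Module F V]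
  {G : Type*} [Group G]

/-- **The dihedral model.**  `r` irreducible over `K`, `H` of index two with a stable line over
`K`: there is an injective algebra homomorphism `φ : End V → M₂(K)`, compatible with traces and
determinants, such that `φ (r h)` is diagonal for `h ∈ H` and antidiagonal for `h ∉ H`. -/
theorem exists_model (K : Type*) [Field K] [Algebra F K] (hV : Module.finrank F V = 2)
    (r : G →* Module.End F V) (H : Subgroup G) (hH : H.index = 2)
    (V' : Submodule K (K ⊗[F] V)) (h0 : V' ≠ ⊥) (h1 : V' ≠ ⊤)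
    (hstab : ∀ h ∈ H, ∀ x ∈ V', (r h).baseChange K x ∈ V')
    (hirr : ∀ W' : Submodule K (K ⊗[F] V),
      (∀ g, ∀ x ∈ W', (r g).baseChange K x ∈ W') → W' = ⊥ ∨ W' = ⊤) :
    ∃ φ : Module.End F V →ₐ[F] Matrix (Fin 2) (Fin 2) K,
      Function.Injective φ ∧
      (∀ x, (φ x).trace = algebraMap F K (LinearMap.trace F V x)) ∧
      (∀ x, (φ x).det = algebraMap F K (LinearMap.det x)) ∧
      (∀ h ∈ H, φ (r h) 0 1 = 0 ∧ φ (r h) 1 0 = 0) ∧
      (∀ g, g ∉ H → φ (r g) 0 0 = 0 ∧ φ (r g) 1 1 = 0) := by
  classical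
  have hfin : Module.Finite F V := Module.finite_of_finrank_eq_succ hV
  have hVK : Module.finrank K (K ⊗[F] V) = 2 := by rw [Module.finrank_baseChange, hV]
  have hHn : H.Normal := Subgroup.normal_of_index_eq_two hH
  -- the group action over `K`
  let ρ : G →* Module.End K (K ⊗[F] V) :=
    { toFun := fun g => (r g).baseChange K
      map_one' := by rw [map_one, LinearMap.baseChange_one]
      map_mul' := fun a b => by rw [map_mul, LinearMap.baseChange_mul] }
  have hρ : ∀ g x, ρ g x = (r g).baseChange K x := fun _ _ => rfl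
  have hρmul : ∀ a b x, ρ (a * b) x = ρ a (ρ b x) := fun a b x => by
    rw [map_mul]; rfl
  obtain ⟨e, heV, he0⟩ := Submodule.exists_mem_ne_zero_of_ne_bot h0
  obtain ⟨g₀, hg₀, -⟩ := Subgroup.index_eq_two_iff_exists_notMem_and.mp hH
  -- `V'` is the line through `e`
  have hline : V' = Submodule.span K {e} := by
    symm
    apply Submodule.eq_of_le_of_finrank_le
    · rw [Submodule.span_singleton_le_iff_mem]; exact heV
    · rw [finrank_span_singleton he0]
      have := Submodule.finrank_lt h1
      rw [hVK] at this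
      omega
  have hmem : ∀ x ∈ V', ∃ c : K, x = c • e := by
    intro x hx
    rw [hline, Submodule.mem_span_singleton] at hx
    obtain ⟨c, rfl⟩ := hx
    exact ⟨c, rfl⟩
  have hHe : ∀ h ∈ H, ∃ c : K, ρ h e = c • e := fun h hh => hmem _ (hstab h hh e heV)
  -- elements outside `H`
  have hout : ∀ g, g ∉ H → g₀⁻¹ * g ∈ H := by
    intro g hg
    rw [Subgroup.mul_mem_iff_of_index_two hH]
    constructor
    · intro h; exact absurd (H.inv_mem_iff.mp h) hg₀
    · intro h; exact absurd h hg
  have hout' : ∀ g, g ∉ H → g * g₀ ∈ H := by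
    intro g hg
    rw [Subgroup.mul_mem_iff_of_index_two hH]
    constructor
    · intro h; exact absurd h hg
    · intro h; exact absurd h hg₀
  set e' : K ⊗[F] V := ρ g₀ e with he'
  have hGe : ∀ g, g ∉ H → ∃ c : K, ρ g e = c • e' := by
    intro g hg
    obtain ⟨c, hc⟩ := hHe _ (hout g hg)
    refine ⟨c, ?_⟩
    have : g = g₀ * (g₀⁻¹ * g) := by group
    rw [this, hρmul, hc, map_smul]
  have hHe' : ∀ h ∈ H, ∃ c : K, ρ h e' = c • e' := by
    intro h hh
    have hh' : g₀⁻¹ * h * g₀ ∈ H := by
      have := hHn.conj_mem h hh g₀⁻¹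
      simpa using this
    obtain ⟨c, hc⟩ := hHe _ hh'
    refine ⟨c, ?_⟩
    have : h * g₀ = g₀ * (g₀⁻¹ * h * g₀) := by group
    rw [he', ← hρmul, this, hρmul, hc, map_smul]
  have hGe' : ∀ g, g ∉ H → ∃ c : K, ρ g e' = c • e := by
    intro g hg
    obtain ⟨c, hc⟩ := hHe _ (hout' g hg)
    exact ⟨c, by rw [he', ← hρmul, hc]⟩
  -- `e, e'` are linearly independent
  have hli : LinearIndependent K ![e, e'] := by
    rw [LinearIndependent.pair_iff]
    intro s t hst
    have ht : t = 0 := by
      by_contra ht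
      have he'V : e' ∈ V' := by
        have : e' = (-(t⁻¹ * s)) • e := by
          have h2 : t • e' = -(s • e) := eq_neg_of_add_eq_zero_right hst
          calc e' = t⁻¹ • (t • e') := by rw [smul_smul, inv_mul_cancel₀ ht, one_smul]
            _ = (-(t⁻¹ * s)) • e := by rw [h2, smul_neg, smul_smul, ← neg_smul]
        rw [this]
        exact V'.smul_mem _ heV
      have hg₀V : ∀ x ∈ V', ρ g₀ x ∈ V' := by
        intro x hx
        obtain ⟨c, rfl⟩ := hmem x hx
        rw [map_smul]
        exact V'.smul_mem _ he'V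
      have hall : ∀ g, ∀ x ∈ V', (r g).baseChange K x ∈ V' := by
        intro g x hx
        by_cases hg : g ∈ H
        · exact hstab g hg x hx
        · have : g = g₀ * (g₀⁻¹ * g) := by group
          rw [← hρ, this, hρmul]
          exact hg₀V _ (hstab _ (hout g hg) x hx)
      rcases hirr V' hall with h | h
      · exact h0 h
      · exact h1 h
    refine ⟨?_, ht⟩
    rw [ht, zero_smul, add_zero] at hst
    exact (smul_eq_zero.mp hst).resolve_right he0
  let b : Module.Basis (Fin 2) K (K ⊗[F] V) :=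
    basisOfLinearIndependentOfCardEqFinrank hli (by rw [hVK]; simp)
  have hb0 : b 0 = e := by
    simp [b, coe_basisOfLinearIndependentOfCardEqFinrank]
  have hb1 : b 1 = e' := by
    simp [b, coe_basisOfLinearIndependentOfCardEqFinrank]
  -- the algebra homomorphism
  let φ : Module.End F V →ₐ[F] Matrix (Fin 2) (Fin 2) K :=
    ((LinearMap.toMatrixAlgEquiv b).toAlgHom.restrictScalars F).comp
      (Module.End.baseChangeHom F K V)
  have hφ : ∀ x, φ x = LinearMap.toMatrix b b (x.baseChange K) := fun _ => rfl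
  have hentry : ∀ (x : Module.End F V) (i j : Fin 2),
      φ x i j = b.repr (x.baseChange K (b j)) i := by
    intro x i j
    rw [hφ, LinearMap.toMatrix_apply]
  have r00 : b.repr e 0 = 1 := by rw [← hb0, b.repr_self]; simp
  have r01 : b.repr e 1 = 0 := by rw [← hb0, b.repr_self]; simp
  have r10 : b.repr e' 0 = 0 := by rw [← hb1, b.repr_self]; simp
  have r11 : b.repr e' 1 = 1 := by rw [← hb1, b.repr_self]; simp
  refine ⟨φ, ?_, ?_, ?_, ?_, ?_⟩
  · intro x y hxy
    have h1 : (Module.End.baseChangeHom F K V) x = (Module.End.baseChangeHom F K V) y :=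
      (LinearMap.toMatrixAlgEquiv b).injective hxy
    exact LinearMap.baseChangeHom_injective F V K h1
  · intro x
    rw [hφ, ← LinearMap.trace_eq_matrix_trace K b, LinearMap.trace_baseChange]
  · intro x
    rw [hφ, LinearMap.det_toMatrix, LinearMap.det_baseChange]
  · intro h hh
    obtain ⟨c, hc⟩ := hHe h hh
    obtain ⟨c', hc'⟩ := hHe' h hh
    rw [hρ] at hc hc'
    constructor
    · rw [hentry, hb1, hc', map_smul, Finsupp.smul_apply, r10, smul_zero]
    · rw [hentry, hb0, hc, map_smul, Finsupp.smul_apply, r01, smul_zero]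
  · intro g hg
    obtain ⟨c, hc⟩ := hGe g hg
    obtain ⟨c', hc'⟩ := hGe' g hg
    rw [hρ] at hc hc'
    constructor
    · rw [hentry, hb0, hc, map_smul, Finsupp.smul_apply, r10, smul_zero]
    · rw [hentry, hb1, hc', map_smul, Finsupp.smul_apply, r01, smul_zero]

/-- **KL1–KL3.**  In the situation of `exists_model` (characteristic `≠ 2`):
* elements outside `H` have trace `0`;
* an element `r g` with `(r g - a)² = 0` is the scalar `a`;
* if `σ ∉ H` and `r σ`, `r τ` commute up to a nilpotent, or anticommute, then `(r τ)²` is a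
  scalar. -/
theorem kl (K : Type*) [Field K] [Algebra F K] (h2 : (2 : F) ≠ 0)
    (hV : Module.finrank F V = 2)
    (r : G →* Module.End F V) (H : Subgroup G) (hH : H.index = 2)
    (V' : Submodule K (K ⊗[F] V)) (h0 : V' ≠ ⊥) (h1 : V' ≠ ⊤)
    (hstab : ∀ h ∈ H, ∀ x ∈ V', (r h).baseChange K x ∈ V')
    (hirr : ∀ W' : Submodule K (K ⊗[F] V),
      (∀ g, ∀ x ∈ W', (r g).baseChange K x ∈ W') → W' = ⊥ ∨ W' = ⊤) :
    (∀ g, g ∉ H → LinearMap.trace F V (r g) = 0) ∧
    (∀ g (a : F), (r g - a • 1) * (r g - a • 1) = 0 → r g = a • 1) ∧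
    (∀ σ, σ ∉ H → ∀ τ,
      (LinearMap.det (r σ * r τ - r τ * r σ) = 0 ∨ r σ * r τ = -(r τ * r σ)) →
        ∃ a : F, r τ * r τ = a • 1) := by
  classical
  obtain ⟨φ, hinj, htr, hdet, hdiag, hanti⟩ := exists_model K hV r H hH V' h0 h1 hstab hirr
  have hamK : Function.Injective (algebraMap F K) := (algebraMap F K).injective
  have h2K : (2 : K) ≠ 0 := by
    intro h
    apply h2
    apply hamK
    rw [map_ofNat, map_zero]
    exact h
  have hsc : ∀ a : F, φ (a • (1 : Module.End F V)) =
      (algebraMap F K a) • (1 : Matrix (Fin 2) (Fin 2) K) := by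
    intro a
    rw [map_smul, map_one, algebraMap_smul]
  have hdetne : ∀ g, (φ (r g)).det ≠ 0 := by
    intro g
    have h : (φ (r g)).det * (φ (r g⁻¹)).det = 1 := by
      rw [← Matrix.det_mul, ← map_mul, ← map_mul, mul_inv_cancel, map_one, map_one,
        Matrix.det_one]
    exact left_ne_zero_of_mul_eq_one h
  have hshape : ∀ g, (φ (r g) 0 1 = 0 ∧ φ (r g) 1 0 = 0) ∨ (φ (r g) 0 0 = 0 ∧ φ (r g) 1 1 = 0) := by
    intro g
    by_cases hg : g ∈ H
    · exact Or.inl (hdiag g hg)
    · exact Or.inr (hanti g hg)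
  refine ⟨?_, ?_, ?_⟩
  · intro g hg
    apply hamK
    rw [← htr, map_zero, Matrix.trace_fin_two, (hanti g hg).1, (hanti g hg).2, add_zero]
  · intro g a hsq
    apply hinj
    rw [hsc]
    apply mat_eq_scalar_of_sq h2K _ _ (hshape g) (hdetne g)
    have := congrArg φ hsq
    rw [map_mul, map_sub, hsc, map_zero] at this
    exact this
  · intro σ hσ τ hcomm
    have hX := hanti σ hσ
    by_cases hτ : τ ∈ H
    · have hY := hdiag τ hτ
      have hcomm' : (φ (r σ) * φ (r τ) - φ (r τ) * φ (r σ)).det = 0 ∨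
          φ (r σ) * φ (r τ) = -(φ (r τ) * φ (r σ)) := by
        rcases hcomm with h | h
        · left
          have e1 : φ (r σ * r τ - r τ * r σ) = φ (r σ) * φ (r τ) - φ (r τ) * φ (r σ) := by
            rw [map_sub, map_mul, map_mul]
          rw [← e1, hdet, h, map_zero]
        · right
          have e1 := congrArg φ h
          rw [map_neg, map_mul, map_mul] at e1
          exact e1
      have key := mat_diag_sq_scalar (φ (r σ)) (φ (r τ)) hX.1 hX.2 (hdetne σ) hY.1 hY.2 hcomm'
      -- the scalar is half the trace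
      have htr2 : (φ (r τ * r τ)).trace = 2 * (φ (r τ) 0 0 * φ (r τ) 0 0) := by
        rw [map_mul, key, Matrix.trace_smul, Matrix.trace_one]
        simp
        ring
      refine ⟨LinearMap.trace F V (r τ * r τ) / 2, ?_⟩
      apply hinj
      rw [hsc, map_mul, key]
      congr 1
      rw [map_div₀, ← htr, htr2, map_ofNat]
      field_simp
    · have hY := hanti τ hτ
      refine ⟨-LinearMap.det (r τ), ?_⟩
      apply hinj
      rw [hsc, map_mul, mat_anti_sq _ hY.1 hY.2, map_neg, hdet]

end Model

end Fermat.Agent.Tate.T7.H7
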