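/-
Tate T7, package ALG, part 2 (helper7): the abstract form of the Taylor–Wiles argument.

`G` acts on a two-dimensional space `V` over `F` (characteristic `≠ 2`), irreducibly; `H` has
index two and the "dihedral" properties `KL1–KL3` hold for `(r, H)` (`H7.kl`); `I` is a subgroup
("inertia at `p`") such that every normal subgroup containing `ker r` and `I` is everything
(Minkowski) and `I` is of ordinary or supersingular type.  Then we have a contradiction.
-/
import Fermat.Agent.Tate.T7.H7_Alg

set_option autoImplicit false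

namespace Fermat.Agent.Tate.T7.H7

/-! ### Endomorphisms of a plane -/

section Lin

variable {F : Type*} [Field F] {V : Type*} [AddCommGroup V] [Module F V]

theorem mat_det_sub_one (M : Matrix (Fin 2) (Fin 2) F) :
    (M - 1).det = 1 - M.trace + M.det := by
  simp [Matrix.det_fin_two, Matrix.trace_fin_two]
  ring

theorem mat_cayley (M : Matrix (Fin 2) (Fin 2) F) :
    M * M = M.trace • M - M.det • (1 : Matrix (Fin 2) (Fin 2) F) := by
  ext i j
  fin_cases i <;> fin_cases j <;>
    simp [Matrix.mul_apply, Fin.sum_univ_two, Matrix.trace_fin_two, Matrix.det_fin_two]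
  all_goals ring

/-- Cayley–Hamilton in rank two. -/
theorem end_cayley (hV : Module.finrank F V = 2) (x : Module.End F V) :
    x * x = LinearMap.trace F V x • x - LinearMap.det x • (1 : Module.End F V) := by
  have : Module.Finite F V := Module.finite_of_finrank_eq_succ hV
  let b := Module.finBasisOfFinrankEq F V hV
  apply (LinearMap.toMatrixAlgEquiv b).injective
  rw [map_mul, map_sub, map_smul, map_smul, map_one, LinearMap.trace_eq_matrix_trace F b,
    ← LinearMap.det_toMatrix b]
  exact mat_cayley _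

/-- `det (x - 1) = 1 - tr x + det x` in rank two. -/
theorem end_det_sub_one (hV : Module.finrank F V = 2) (x : Module.End F V) :
    LinearMap.det (x - 1) = 1 - LinearMap.trace F V x + LinearMap.det x := by
  have : Module.Finite F V := Module.finite_of_finrank_eq_succ hV
  let b := Module.finBasisOfFinrankEq F V hV
  rw [← LinearMap.det_toMatrix b, ← LinearMap.det_toMatrix b x,
    LinearMap.trace_eq_matrix_trace F b, map_sub]
  have : LinearMap.toMatrix b b (1 : Module.End F V) = 1 := LinearMap.toMatrix_one b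
  rw [this]
  exact mat_det_sub_one _

/-- An endomorphism whose image lies in a proper subspace has determinant zero. -/
theorem end_det_eq_zero_of_range (hV : Module.finrank F V = 2) (x : Module.End F V)
    (T : Submodule F V) (hT : T ≠ ⊤) (h : ∀ v, x v ∈ T) : LinearMap.det x = 0 := by
  have : Module.Finite F V := Module.finite_of_finrank_eq_succ hV
  by_contra hne
  have hu : IsUnit x := (LinearMap.isUnit_iff_isUnit_det x).mpr (isUnit_iff_ne_zero.mpr hne)
  obtain ⟨y, hy⟩ := hu.exists_right_inv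
  apply hT
  rw [eq_top_iff]
  intro v _
  have : v = x (y v) := by
    have := congrArg (fun f : Module.End F V => f v) hy
    simpa using this.symm
  rw [this]
  exact h _

/-- An endomorphism with determinant zero kills a nonzero vector. -/
theorem end_exists_ker (hV : Module.finrank F V = 2) (x : Module.End F V)
    (h : LinearMap.det x = 0) : ∃ v : V, v ≠ 0 ∧ x v = 0 := by
  have : Module.Finite F V := Module.finite_of_finrank_eq_succ hV
  have := LinearMap.bot_lt_ker_of_det_eq_zero h
  obtain ⟨v, hv, hv0⟩ := Submodule.exists_mem_ne_zero_of_ne_bot (bot_lt_iff_ne_bot.mp this)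
  exact ⟨v, hv0, hv⟩

/-- An endomorphism mapping every vector to itself or its negative is `1` or `-1`. -/
theorem end_pm_one (h2 : (2 : F) ≠ 0) (x : Module.End F V)
    (h : ∀ v, x v = v ∨ x v = -v) : x = 1 ∨ x = -1 := by
  by_cases hp : ∀ v, x v = v
  · left; ext v; exact hp v
  · right
    push Not at hp
    obtain ⟨w, hw⟩ := hp
    have hw' : x w = -w := (h w).resolve_left hw
    have hw0 : w ≠ 0 := by
      rintro rfl
      exact hw (by rw [map_zero])
    have h2w : ∀ u : V, (2 : F) • u = 0 → u = 0 := fun u hu =>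
      (smul_eq_zero.mp hu).resolve_left h2
    ext v
    rcases h v with hv | hv
    · -- then `v = 0`
      have hvw : x (v + w) = v - w := by rw [map_add, hv, hw', sub_eq_add_neg]
      have hv0 : v = 0 := by
        rcases h (v + w) with h1 | h1
        · exfalso
          apply hw0
          apply h2w
          have : v - w = v + w := by rw [← hvw, h1]
          rw [two_smul]
          have e : w + w = (v + w) - (v - w) := by abel
          rw [e, this, sub_self]
        · apply h2w
          have : v - w = -(v + w) := by rw [← hvw, h1]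
          rw [two_smul]
          have e : v + v = (v - w) + (v + w) := by abel
          rw [e, this, neg_add_cancel]
      rw [hv0, map_zero, map_zero]
    · rw [hv]; rfl

end Lin

/-! ### The dihedral properties and their consequences -/

section Main

variable {F : Type*} [Field F] {V : Type*} [AddCommGroup V] [Module F V]
  {G : Type*} [Group G]

/-- The dihedral properties `KL1–KL3` of `(r, H)`. -/
structure Dih (r : G →* Module.End F V) (H : Subgroup G) : Prop where
  tr0 : ∀ g, g ∉ H → LinearMap.trace F V (r g) = 0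
  sc : ∀ g (a : F), (r g - a • 1) * (r g - a • 1) = 0 → r g = a • 1
  sq : ∀ σ, σ ∉ H → ∀ τ,
    (LinearMap.det (r σ * r τ - r τ * r σ) = 0 ∨ r σ * r τ = -(r τ * r σ)) →
      ∃ a : F, r τ * r τ = a • 1

variable {r : G →* Module.End F V} {H : Subgroup G}

theorem Dih.ker_mem (hD : Dih r H) (h2 : (2 : F) ≠ 0) (hV : Module.finrank F V = 2) {g : G}
    (hg : r g = 1) : g ∈ H := by
  have hfin : Module.Finite F V := Module.finite_of_finrank_eq_succ hV
  by_contra h
  have := hD.tr0 g h
  rw [hg, LinearMap.trace_one, hV] at this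
  exact h2 (by exact_mod_cast this)

theorem r_mul_inv (r : G →* Module.End F V) (g : G) : r g * r g⁻¹ = 1 := by
  rw [← map_mul, mul_inv_cancel, map_one]

theorem r_inv_mul (r : G →* Module.End F V) (g : G) : r g⁻¹ * r g = 1 := by
  rw [← map_mul, inv_mul_cancel, map_one]

theorem det_r_ne_zero (r : G →* Module.End F V) (g : G) : LinearMap.det (r g) ≠ 0 := by
  have h : LinearMap.det (r g) * LinearMap.det (r g⁻¹) = 1 := by
    rw [← map_mul, r_mul_inv, map_one]
  exact left_ne_zero_of_mul_eq_one h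

/-- Supersingular type: `I ≤ H`. -/
theorem Dih.le_of_ss (hD : Dih r H) (h2 : (2 : F) ≠ 0) (hV : Module.finrank F V = 2)
    (I : Subgroup G)
    (hcomm : ∀ σ ∈ I, ∀ τ ∈ I, ∀ v, r σ (r τ v) = r τ (r σ v) ∨ r σ (r τ v) = -(r τ (r σ v)))
    (hns : ∃ τ ∈ I, ∀ a : F, r τ * r τ ≠ a • 1) : I ≤ H := by
  intro σ hσ
  by_contra hσH
  obtain ⟨τ, hτ, hτns⟩ := hns
  -- `x = (r τ r σ)⁻¹ r σ r τ` is `± 1`
  let x : Module.End F V := r (σ⁻¹ * τ⁻¹) * (r σ * r τ)
  have hx : ∀ v, x v = v ∨ x v = -v := by
    intro v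
    have e1 : r (σ⁻¹ * τ⁻¹) (r τ (r σ v)) = v := by
      have : r (σ⁻¹ * τ⁻¹) * (r τ * r σ) = 1 := by
        rw [← map_mul, ← map_mul]
        have : σ⁻¹ * τ⁻¹ * (τ * σ) = 1 := by group
        rw [this, map_one]
      exact congrArg (fun f : Module.End F V => f v) this
    rcases hcomm σ hσ τ hτ v with h | h
    · left
      show r (σ⁻¹ * τ⁻¹) (r σ (r τ v)) = v
      rw [h, e1]
    · right
      show r (σ⁻¹ * τ⁻¹) (r σ (r τ v)) = -v
      rw [h, map_neg, e1]
  have hinv : r (τ * σ) * x = r σ * r τ := by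
    show r (τ * σ) * (r (σ⁻¹ * τ⁻¹) * (r σ * r τ)) = r σ * r τ
    rw [← mul_assoc, ← map_mul]
    have : τ * σ * (σ⁻¹ * τ⁻¹) = 1 := by group
    rw [this, map_one, one_mul]
  have hc : r σ * r τ = r τ * r σ ∨ r σ * r τ = -(r τ * r σ) := by
    rcases end_pm_one h2 x hx with h | h
    · left; rw [← hinv, h, mul_one, map_mul]
    · right; rw [← hinv, h, mul_neg, mul_one, map_mul]
  have hc' : LinearMap.det (r σ * r τ - r τ * r σ) = 0 ∨ r σ * r τ = -(r τ * r σ) := by
    rcases hc with h | h
    · left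
      rw [h, sub_self]
      exact end_det_eq_zero_of_range hV 0 ⊥
        (by
          intro h
          have : Module.finrank F (⊥ : Submodule F V) = 2 := by rw [h, finrank_top, hV]
          simp at this)
        (fun v => by simp)
    · right; exact h
  obtain ⟨a, ha⟩ := hD.sq σ hσH τ hc'
  exact hτns a ha

/-- Ordinary type, with an element of `I` whose determinant is not `± 1`: `I ≤ H`. -/
theorem Dih.le_of_ord (hD : Dih r H) (hV : Module.finrank F V = 2)
    (I : Subgroup G) (T : Submodule F V) (hT : T ≠ ⊤) (hI : ∀ σ ∈ I, ∀ v, r σ v - v ∈ T)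
    (hτ : ∃ τ ∈ I, LinearMap.det (r τ) * LinearMap.det (r τ) ≠ 1) : I ≤ H := by
  intro σ hσ
  by_contra hσH
  obtain ⟨τ, hτI, hτd⟩ := hτ
  -- the commutator has its image in `T`
  have hz : LinearMap.det (r σ * r τ - r τ * r σ) = 0 := by
    apply end_det_eq_zero_of_range hV _ T hT
    intro v
    have e : (r σ * r τ - r τ * r σ) v =
        (r σ (r τ v) - r τ v) + (r τ v - v) - (r τ (r σ v) - r σ v) - (r σ v - v) := by
      simp only [LinearMap.sub_apply, Module.End.mul_apply]
      abel
    rw [e]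
    exact T.sub_mem (T.sub_mem (T.add_mem (hI σ hσ _) (hI τ hτI _)) (hI τ hτI _)) (hI σ hσ _)
  obtain ⟨a, ha⟩ := hD.sq σ hσH τ (Or.inl hz)
  -- `r τ` fixes a nonzero vector
  have hd1 : LinearMap.det (r τ - 1) = 0 :=
    end_det_eq_zero_of_range hV _ T hT (fun v => by
      simpa [LinearMap.sub_apply] using hI τ hτI v)
  obtain ⟨v, hv0, hv⟩ := end_exists_ker hV _ hd1
  have hv' : r τ v = v := by
    rw [LinearMap.sub_apply, Module.End.one_apply, sub_eq_zero] at hv
    exact hv
  have ha1 : a = 1 := by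
    have h1 := congrArg (fun f : Module.End F V => f v) ha
    simp only [Module.End.mul_apply, hv', LinearMap.smul_apply, Module.End.one_apply] at h1
    have h2' : (a - 1) • v = 0 := by rw [sub_smul, one_smul, ← h1, sub_self]
    exact sub_eq_zero.mp ((smul_eq_zero.mp h2').resolve_right hv0)
  apply hτd
  rw [← map_mul, ha, ha1, one_smul, map_one]

/-- Ordinary type when the only units of `F` are `± 1` (`F = 𝔽₃`): `I ≤ H`, by two further
applications of "Minkowski" (`hMink`). -/
theorem Dih.le_of_ord_units (hD : Dih r H) (h2 : (2 : F) ≠ 0) (hV : Module.finrank F V = 2)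
    (hH : H.index = 2)
    (hirr : ∀ W : Submodule F V, (∀ g, ∀ x ∈ W, r g x ∈ W) → W = ⊥ ∨ W = ⊤)
    (hunits : ∀ a : F, a ≠ 0 → a = 1 ∨ a = -1)
    (I : Subgroup G)
    (hMink : ∀ N : Subgroup G, N.Normal → (∀ g, r g = 1 → g ∈ N) → I ≤ N → N = ⊤)
    (T : Submodule F V) (hT : T ≠ ⊤) (hI : ∀ σ ∈ I, ∀ v, r σ v - v ∈ T) : I ≤ H := by
  intro σ₀ hσ₀
  by_contra hσ₀H
  have hHn : H.Normal := Subgroup.normal_of_index_eq_two hH
  have hneg1 : (-1 : F) ≠ 1 := by
    intro h; apply h2; linear_combination -h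
  have h3 : (3 : F) = 0 := by
    rcases hunits 2 h2 with h | h
    · exfalso
      have : (1 : F) = 0 := by linear_combination h
      exact one_ne_zero this
    · linear_combination h
  have hdet : ∀ g, LinearMap.det (r g) = 1 ∨ LinearMap.det (r g) = -1 :=
    fun g => hunits _ (det_r_ne_zero r g)
  have hdetinv : ∀ g, LinearMap.det (r g⁻¹) = LinearMap.det (r g) := by
    intro g
    have h : LinearMap.det (r g) * LinearMap.det (r g⁻¹) = 1 := by
      rw [← map_mul, r_mul_inv, map_one]
    rcases hdet g with h1 | h1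
    · rw [h1, one_mul] at h; rw [h, h1]
    · rw [h1] at h; rw [h1]; linear_combination -h
  -- general consequences of Cayley–Hamilton
  have hsq_of_anti : ∀ x : Module.End F V, LinearMap.trace F V x = 0 → LinearMap.det x = -1 →
      x * x = 1 := by
    intro x ht hd
    rw [end_cayley hV x, ht, hd, zero_smul, neg_smul, one_smul, zero_sub, neg_neg]
  -- (1) elements of `I`
  have hIdet : ∀ σ ∈ I, LinearMap.det (r σ - 1) = 0 := fun σ hσ =>
    end_det_eq_zero_of_range hV _ T hT (fun v => by
      simpa [LinearMap.sub_apply] using hI σ hσ v)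
  have hI1 : ∀ σ ∈ I, LinearMap.det (r σ) = 1 → r σ = 1 := by
    intro σ hσ hd
    have ht : LinearMap.trace F V (r σ) = 2 := by
      have := end_det_sub_one hV (r σ)
      rw [hIdet σ hσ, hd] at this
      linear_combination this
    have hC := end_cayley hV (r σ)
    rw [ht, hd, one_smul] at hC
    have := hD.sc σ 1 (by
      rw [one_smul]
      have e : (r σ - 1) * (r σ - 1) = r σ * r σ - (2 : F) • r σ + 1 := by
        rw [sub_mul, mul_sub, mul_sub, mul_one, one_mul, one_mul, two_smul]; abel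
      rw [e, hC]; abel)
    rw [this, one_smul]
  have hIm : ∀ σ ∈ I, LinearMap.det (r σ) = -1 →
      LinearMap.trace F V (r σ) = 0 := by
    intro σ hσ hd
    have := end_det_sub_one hV (r σ)
    rw [hIdet σ hσ, hd] at this
    linear_combination this
  -- (2) `s`
  have hs_det : LinearMap.det (r σ₀) = -1 := by
    rcases hdet σ₀ with h | h
    · exact absurd (hD.ker_mem h2 hV (hI1 σ₀ hσ₀ h)) hσ₀H
    · exact h
  have hs_sq : r σ₀ * r σ₀ = 1 := hsq_of_anti _ (hIm σ₀ hσ₀ hs_det) hs_det
  -- (3) the image of `I`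
  have hI2 : ∀ σ ∈ I, r σ = 1 ∨ r σ = r σ₀ := by
    intro σ hσ
    rcases hdet σ with h | h
    · exact Or.inl (hI1 σ hσ h)
    · right
      have hmem : σ * σ₀⁻¹ ∈ I := I.mul_mem hσ (I.inv_mem hσ₀)
      have hd : LinearMap.det (r (σ * σ₀⁻¹)) = 1 := by
        rw [map_mul, map_mul, hdetinv, h, hs_det]; ring
      have h1 := hI1 _ hmem hd
      calc r σ = r (σ * σ₀⁻¹) * r σ₀ := by
            rw [← map_mul]; congr 1; group
        _ = r σ₀ := by rw [h1, one_mul]
  have hI_notin : ∀ σ ∈ I, r σ = r σ₀ → σ ∉ H := by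
    intro σ hσ h hσH
    have h1 : r (σ * σ₀⁻¹) = 1 := by rw [map_mul, h, r_mul_inv]
    have h2' : σ * σ₀⁻¹ ∈ H := hD.ker_mem h2 hV h1
    have : σ₀⁻¹ ∈ H := (Subgroup.mul_mem_cancel_left H hσH).mp h2'
    exact hσ₀H (H.inv_mem_iff.mp this)
  -- (4) `H` is the kernel of the determinant
  let N₁ : Subgroup G :=
    { carrier := {g | g ∈ H ↔ LinearMap.det (r g) = 1}
      one_mem' := by
        show (1 : G) ∈ H ↔ LinearMap.det (r 1) = 1
        rw [map_one, map_one]
        exact ⟨fun _ => rfl, fun _ => H.one_mem⟩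
      mul_mem' := by
        intro a b ha hb
        show a * b ∈ H ↔ LinearMap.det (r (a * b)) = 1
        have ha' : a ∈ H ↔ LinearMap.det (r a) = 1 := ha
        have hb' : b ∈ H ↔ LinearMap.det (r b) = 1 := hb
        rw [Subgroup.mul_mem_iff_of_index_two hH, map_mul, map_mul, ha', hb']
        rcases hdet a with h1 | h1 <;> rcases hdet b with h1' | h1' <;> rw [h1, h1']
        · simp
        · simp [hneg1]
        · simp [hneg1]
        · simp [hneg1]
      inv_mem' := by
        intro a ha
        show a⁻¹ ∈ H ↔ LinearMap.det (r a⁻¹) = 1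
        have ha' : a ∈ H ↔ LinearMap.det (r a) = 1 := ha
        rw [H.inv_mem_iff, hdetinv, ha'] }
  have hN₁mem : ∀ g, g ∈ N₁ ↔ (g ∈ H ↔ LinearMap.det (r g) = 1) := fun _ => Iff.rfl
  have hN₁n : N₁.Normal := by
    constructor
    intro n hn g
    rw [hN₁mem] at hn ⊢
    have e1 : g * n * g⁻¹ ∈ H ↔ n ∈ H := by
      constructor
      · intro h
        have := hHn.conj_mem _ h g⁻¹
        simpa [mul_assoc] using this
      · intro h; exact hHn.conj_mem n h g
    have e2 : LinearMap.det (r (g * n * g⁻¹)) = LinearMap.det (r n) := by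
      rw [map_mul, map_mul, map_mul, map_mul, hdetinv]
      rcases hdet g with h | h <;> rw [h] <;> ring
    rw [e1, e2]
    exact hn
  have hN₁top : N₁ = ⊤ := by
    apply hMink N₁ hN₁n
    · intro g hg
      rw [hN₁mem, hg, map_one]
      exact ⟨fun _ => rfl, fun _ => hD.ker_mem h2 hV hg⟩
    · intro σ hσ
      rw [hN₁mem]
      rcases hI2 σ hσ with h | h
      · rw [h, map_one]
        exact ⟨fun _ => rfl, fun _ => hD.ker_mem h2 hV h⟩
      · rw [h, hs_det]
        exact ⟨fun hh => absurd hh (hI_notin σ hσ h), fun hh => absurd hh hneg1⟩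
  have hHdet : ∀ g, g ∈ H ↔ LinearMap.det (r g) = 1 := by
    intro g
    rw [← hN₁mem, hN₁top]
    exact Subgroup.mem_top g
  have hout_sq : ∀ g, g ∉ H → r g * r g = 1 := by
    intro g hg
    apply hsq_of_anti _ (hD.tr0 g hg)
    rcases hdet g with h | h
    · exact absurd ((hHdet g).mpr h) hg
    · exact h
  -- (5) elements of `H`
  have hH_sq : ∀ h ∈ H, r h * r h = 1 ∨ r h * r h = -1 := by
    intro h hh
    have hd : LinearMap.det (r h) = 1 := (hHdet h).mp hh
    have hC := end_cayley hV (r h)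
    rw [hd, one_smul] at hC
    by_cases ht0 : LinearMap.trace F V (r h) = 0
    · right
      rw [hC, ht0, zero_smul, zero_sub]
    · left
      rcases hunits _ ht0 with ht | ht
      · -- trace `1`: `r h = -1`
        rw [ht, one_smul] at hC
        have := hD.sc h (-1) (by
          have e : (r h - (-1 : F) • (1 : Module.End F V)) * (r h - (-1 : F) • 1) =
              r h * r h + (2 : F) • r h + 1 := by
            rw [neg_smul, one_smul, sub_neg_eq_add, add_mul, mul_add, mul_add, mul_one, one_mul,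
              one_mul, two_smul]; abel
          rw [e, hC]
          have e3 : r h - 1 + (2 : F) • r h + 1 = (3 : F) • r h := by
            have : (3 : F) = 2 + 1 := by norm_num
            rw [this, add_smul, one_smul]; abel
          rw [e3, h3, zero_smul])
        rw [this, neg_smul, one_smul, neg_mul_neg, one_mul]
      · -- trace `-1`: `r h = 1`
        rw [ht, neg_smul, one_smul] at hC
        have := hD.sc h 1 (by
          have e : (r h - (1 : F) • (1 : Module.End F V)) * (r h - (1 : F) • 1) =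
              r h * r h - (2 : F) • r h + 1 := by
            rw [one_smul, sub_mul, mul_sub, mul_sub, mul_one, one_mul, one_mul, two_smul]; abel
          rw [e, hC]
          have e3 : -r h - 1 - (2 : F) • r h + 1 = -((3 : F) • r h) := by
            have : (3 : F) = 2 + 1 := by norm_num
            rw [this, add_smul, one_smul]; abel
          rw [e3, h3, zero_smul, neg_zero])
        rw [this, one_smul, one_mul]
  -- conjugates of `s` are `± s`
  have hconjH : ∀ h ∈ H, r h⁻¹ * r σ₀ * r h = r σ₀ ∨ r h⁻¹ * r σ₀ * r h = -r σ₀ := by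
    intro h hh
    have hsh : σ₀ * h ∉ H := by
      rw [Subgroup.mul_mem_iff_of_index_two hH]
      intro hiff
      exact hσ₀H (hiff.mpr hh)
    have h1 : r σ₀ * r h * (r σ₀ * r h) = 1 := by
      have := hout_sq _ hsh
      rwa [map_mul] at this
    -- `r h⁻¹ = s (r h) s`
    have h2' : r h⁻¹ = r σ₀ * r h * r σ₀ := by
      calc r h⁻¹ = (r σ₀ * r h * (r σ₀ * r h)) * r h⁻¹ := by rw [h1, one_mul]
        _ = r σ₀ * r h * r σ₀ * (r h * r h⁻¹) := by simp only [mul_assoc]
        _ = r σ₀ * r h * r σ₀ := by rw [r_mul_inv, mul_one]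
    have h3' : r h⁻¹ * r σ₀ * r h = r σ₀ * (r h * r h) := by
      rw [h2']
      calc r σ₀ * r h * r σ₀ * r σ₀ * r h = r σ₀ * r h * (r σ₀ * r σ₀) * r h := by
            simp only [mul_assoc]
        _ = r σ₀ * (r h * r h) := by rw [hs_sq, mul_one, mul_assoc]
    rcases hH_sq h hh with h4 | h4
    · left; rw [h3', h4, mul_one]
    · right; rw [h3', h4, mul_neg, mul_one]
  have hconj : ∀ g, r g⁻¹ * r σ₀ * r g = r σ₀ ∨ r g⁻¹ * r σ₀ * r g = -r σ₀ := by
    intro g
    by_cases hg : g ∈ H
    · exact hconjH g hg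
    · have hh : σ₀⁻¹ * g ∈ H := by
        rw [Subgroup.mul_mem_iff_of_index_two hH]
        constructor
        · intro h; exact absurd (H.inv_mem_iff.mp h) hσ₀H
        · intro h; exact absurd h hg
      have e : r g⁻¹ * r σ₀ * r g =
          r (σ₀⁻¹ * g)⁻¹ * r σ₀ * r (σ₀⁻¹ * g) := by
        have e1 : r g = r σ₀ * r (σ₀⁻¹ * g) := by
          rw [← map_mul]; congr 1; group
        have e2 : r g⁻¹ = r (σ₀⁻¹ * g)⁻¹ * r σ₀⁻¹ := by
          rw [← map_mul]; congr 1; group
        rw [e2, e1]
        calc r (σ₀⁻¹ * g)⁻¹ * r σ₀⁻¹ * r σ₀ * (r σ₀ * r (σ₀⁻¹ * g))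
            = r (σ₀⁻¹ * g)⁻¹ * (r σ₀⁻¹ * r σ₀) * r σ₀ * r (σ₀⁻¹ * g) := by
              simp only [mul_assoc]
          _ = r (σ₀⁻¹ * g)⁻¹ * r σ₀ * r (σ₀⁻¹ * g) := by rw [r_inv_mul, mul_one]
      rw [e]
      exact hconjH _ hh
  -- (6) the centraliser of `s`
  let N₂ : Subgroup G :=
    { carrier := {g | r g * r σ₀ = r σ₀ * r g}
      one_mem' := by
        show r 1 * r σ₀ = r σ₀ * r 1
        rw [map_one, one_mul, mul_one]
      mul_mem' := by
        intro a b ha hb
        show r (a * b) * r σ₀ = r σ₀ * r (a * b)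
        have ha' : r a * r σ₀ = r σ₀ * r a := ha
        have hb' : r b * r σ₀ = r σ₀ * r b := hb
        rw [map_mul, mul_assoc, hb', ← mul_assoc, ha', mul_assoc]
      inv_mem' := by
        intro a ha
        show r a⁻¹ * r σ₀ = r σ₀ * r a⁻¹
        have ha' : r a * r σ₀ = r σ₀ * r a := ha
        calc r a⁻¹ * r σ₀ = r a⁻¹ * r σ₀ * (r a * r a⁻¹) := by rw [r_mul_inv, mul_one]
          _ = r a⁻¹ * (r σ₀ * r a) * r a⁻¹ := by simp only [mul_assoc]
          _ = r a⁻¹ * (r a * r σ₀) * r a⁻¹ := by rw [ha']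
          _ = (r a⁻¹ * r a) * r σ₀ * r a⁻¹ := by simp only [mul_assoc]
          _ = r σ₀ * r a⁻¹ := by rw [r_inv_mul, one_mul] }
  have hN₂mem : ∀ g, g ∈ N₂ ↔ r g * r σ₀ = r σ₀ * r g := fun _ => Iff.rfl
  have hN₂n : N₂.Normal := by
    constructor
    intro n hn g
    rw [hN₂mem] at hn ⊢
    -- `S Y = ε Y S` for `Y = r g`
    have hSY : r σ₀ * r g = r g * r σ₀ ∨ r σ₀ * r g = -(r g * r σ₀) := by
      rcases hconj g with h | h
      · left
        calc r σ₀ * r g = (r g * r g⁻¹) * r σ₀ * r g := by rw [r_mul_inv, one_mul]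
          _ = r g * (r g⁻¹ * r σ₀ * r g) := by simp only [mul_assoc]
          _ = r g * r σ₀ := by rw [h]
      · right
        calc r σ₀ * r g = (r g * r g⁻¹) * r σ₀ * r g := by rw [r_mul_inv, one_mul]
          _ = r g * (r g⁻¹ * r σ₀ * r g) := by simp only [mul_assoc]
          _ = -(r g * r σ₀) := by rw [h, mul_neg]
    have hSY' : r σ₀ * r g⁻¹ = r g⁻¹ * r σ₀ ∨ r σ₀ * r g⁻¹ = -(r g⁻¹ * r σ₀) := by
      rcases hconj g with h | h
      · left
        calc r σ₀ * r g⁻¹ = (r g⁻¹ * r σ₀ * r g) * r g⁻¹ := by rw [h]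
          _ = r g⁻¹ * r σ₀ * (r g * r g⁻¹) := by simp only [mul_assoc]
          _ = r g⁻¹ * r σ₀ := by rw [r_mul_inv, mul_one]
      · right
        calc r σ₀ * r g⁻¹ = -(-(r σ₀)) * r g⁻¹ := by rw [neg_neg]
          _ = -(r g⁻¹ * r σ₀ * r g) * r g⁻¹ := by rw [h]
          _ = -(r g⁻¹ * r σ₀ * (r g * r g⁻¹)) := by simp only [mul_assoc, neg_mul]
          _ = -(r g⁻¹ * r σ₀) := by rw [r_mul_inv, mul_one]
    rw [map_mul, map_mul]
    rcases hconj g with h | h
    · have e1 : r σ₀ * r g = r g * r σ₀ := by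
        calc r σ₀ * r g = (r g * r g⁻¹) * r σ₀ * r g := by rw [r_mul_inv, one_mul]
          _ = r g * (r g⁻¹ * r σ₀ * r g) := by simp only [mul_assoc]
          _ = r g * r σ₀ := by rw [h]
      have e2 : r g⁻¹ * r σ₀ = r σ₀ * r g⁻¹ := by
        calc r g⁻¹ * r σ₀ = r g⁻¹ * r σ₀ * (r g * r g⁻¹) := by rw [r_mul_inv, mul_one]
          _ = (r g⁻¹ * r σ₀ * r g) * r g⁻¹ := by simp only [mul_assoc]
          _ = r σ₀ * r g⁻¹ := by rw [h]
      calc r g * r n * r g⁻¹ * r σ₀ = r g * r n * (r g⁻¹ * r σ₀) := by simp only [mul_assoc]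
        _ = r g * (r n * r σ₀) * r g⁻¹ := by rw [e2]; simp only [mul_assoc]
        _ = (r g * r σ₀) * r n * r g⁻¹ := by rw [hn]; simp only [mul_assoc]
        _ = r σ₀ * (r g * r n * r g⁻¹) := by rw [← e1]; simp only [mul_assoc]
    · have e1 : r σ₀ * r g = -(r g * r σ₀) := by
        calc r σ₀ * r g = (r g * r g⁻¹) * r σ₀ * r g := by rw [r_mul_inv, one_mul]
          _ = r g * (r g⁻¹ * r σ₀ * r g) := by simp only [mul_assoc]
          _ = -(r g * r σ₀) := by rw [h, mul_neg]
      have e2 : r g⁻¹ * r σ₀ = -(r σ₀ * r g⁻¹) := by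
        calc r g⁻¹ * r σ₀ = r g⁻¹ * r σ₀ * (r g * r g⁻¹) := by rw [r_mul_inv, mul_one]
          _ = (r g⁻¹ * r σ₀ * r g) * r g⁻¹ := by simp only [mul_assoc]
          _ = -(r σ₀ * r g⁻¹) := by rw [h, neg_mul]
      calc r g * r n * r g⁻¹ * r σ₀ = r g * r n * (r g⁻¹ * r σ₀) := by simp only [mul_assoc]
        _ = -(r g * (r n * r σ₀) * r g⁻¹) := by rw [e2]; simp only [mul_assoc, mul_neg]
        _ = -((r g * r σ₀) * r n * r g⁻¹) := by rw [hn]; simp only [mul_assoc]
        _ = r σ₀ * (r g * r n * r g⁻¹) := by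
            have : r g * r σ₀ = -(r σ₀ * r g) := by rw [e1, neg_neg]
            rw [this]; simp only [mul_assoc, neg_mul, neg_neg]
  have hN₂top : N₂ = ⊤ := by
    apply hMink N₂ hN₂n
    · intro g hg
      rw [hN₂mem, hg, one_mul, mul_one]
    · intro σ hσ
      rw [hN₂mem]
      rcases hI2 σ hσ with h | h
      · rw [h, one_mul, mul_one]
      · rw [h]
  have hcentral : ∀ g, r g * r σ₀ = r σ₀ * r g := by
    intro g
    rw [← hN₂mem, hN₂top]
    exact Subgroup.mem_top g
  -- (7) the eigenspace of `s` is stable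
  let E : Submodule F V := LinearMap.ker (r σ₀ - 1)
  have hE : ∀ g, ∀ x ∈ E, r g x ∈ E := by
    intro g x hx
    have hx' : r σ₀ x = x := by
      have : (r σ₀ - 1) x = 0 := hx
      rwa [LinearMap.sub_apply, Module.End.one_apply, sub_eq_zero] at this
    show (r σ₀ - 1) (r g x) = 0
    rw [LinearMap.sub_apply, Module.End.one_apply, sub_eq_zero]
    have := congrArg (fun f : Module.End F V => f x) (hcentral g)
    simp only [Module.End.mul_apply] at this
    rw [← this, hx']
  rcases hirr E hE with h | h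
  · obtain ⟨v, hv0, hv⟩ := end_exists_ker hV _ (hIdet σ₀ hσ₀)
    have : v ∈ E := hv
    rw [h] at this
    exact hv0 ((Submodule.mem_bot F).mp this)
  · have h1 : r σ₀ = 1 := by
      ext v
      have : v ∈ E := by rw [h]; exact Submodule.mem_top
      have : (r σ₀ - 1) v = 0 := this
      rwa [LinearMap.sub_apply, Module.End.one_apply, sub_eq_zero] at this
    exact hσ₀H (hD.ker_mem h2 hV h1)

end Main

end Fermat.Agent.Tate.T7.H7
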