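import Fermat.Agent.Tate.T7.Defs
import Fermat.Agent.Tate.H7_Charpoly
import Fermat.Agent.S58.H99_Odd
import Fermat.Agent.S58.H99_TateBridge

/-!
# Tate T7a: residual absolute irreducibility (helper99)

`stmt_T7a : Stmt_T7a`, from `S58.H99.stmt_ResIrr` and T3c (`Tate.H7.stmt_T3c`).
Also `hasFrobOf_tateData`: every Tate datum has the Frobenius characteristic polynomials of `W`
outside `badSet W p`, and `residual_isOdd_tateData`.
-/

set_option autoImplicit false

open IsLocalRing

namespace Fermat.Agent.Tate.T7.H99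

open Fermat.Agent.S58 Fermat.Agent.S58.H99

/-- A Tate datum has the Frobenius characteristic polynomials of `W` outside `badSet W p`. -/
theorem hasFrobOf_tateData (W : WeierstrassCurve ℤ) (hΔ : W.Δ ≠ 0) (p : ℕ) [Fact p.Prime]
    (D : TateData W p) : HasFrobOf W D.ρ (badSet W p) := by
  intro ℓ hℓ hℓS P hP σ hσ
  obtain ⟨hℓp, hgood⟩ := not_mem_badSet hΔ hℓ hℓS
  exact Fermat.Agent.Tate.H7.stmt_T3c W hΔ p D ℓ hℓ hℓp hgood P hP σ hσ

/-- The residual representation of a Tate datum of a curve with irreducible `E[p]`, `p` odd, is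
absolutely irreducible and odd. -/
theorem residual_irr_odd_tateData (W : WeierstrassCurve ℤ) (hΔ : W.Δ ≠ 0) (p : ℕ)
    [Fact p.Prime] (hp2 : p ≠ 2) (D : TateData W p) (hirr : W.ModRepIsIrreducible p) :
    D.ρ.residual.IsAbsolutelyIrreducible ∧ D.ρ.residual.IsOdd :=
  stmt_ResIrr p hp2 W hΔ hirr ℤ_[p] (natCast_mem_maximalIdeal_padicInt p) D.ρ (badSet W p)
    (hasFrobOf_tateData W hΔ p D)

/-- **T7a.** -/
theorem stmt_T7a : Stmt_T7a := fun W hΔ _ p _ hp2 D hirr =>
  (residual_irr_odd_tateData W hΔ p hp2 D hirr).1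

end Fermat.Agent.Tate.T7.H99
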