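/-
Tate T7, package TWT (helper7): the torsion form of the Taylor–Wiles condition.

For a semistable curve with irreducible `E[p]`, `p` odd, the image of every subgroup `H` of index
two of `Gal(Q̄/ℚ)` spans `End (E[p])`.  Plan: NOTES/plan/Tate_T7.md.
-/
import Fermat.Agent.Tate.T7.H7_Alg2
import Fermat.Agent.Tate.T7.Defs
import Fermat.Agent.Tate.T7.H99_T7a
import Fermat.Agent.S58.H99_Odd
import Fermat.Agent.S53.Schur
import Fermat.Agent.Lib.Minkowski
import Fermat.Agent.Lib.FrobExists
import Fermat.Agent.S52.H5_Unip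
import Fermat.Agent.Tate.H46_T1
import Fermat.Agent.Tate.H4_T2

set_option autoImplicit false

open WeierstrassCurve WeierstrassCurve.Affine TensorProduct

namespace Fermat.Agent.Tate.T7.H7

open Fermat.Agent.S58 Fermat.Agent.S58.H99

/-! ### Gram determinants and spans -/

section Gram

variable {F : Type*} [Field F] {V : Type*} [AddCommGroup V] [Module F V]
  {G : Type*} [Group G]

/-- Four elements of a set `S` with invertible Gram matrix: the image of `S` spans `End V`. -/
theorem span_eq_top_of_gram (hV : Module.finrank F V = 2) (r : G →* Module.End F V)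
    (S : Set G) (g : Fin 2 × Fin 2 → G) (hg : ∀ a, g a ∈ S)
    (hdet : (Matrix.of fun a b => LinearMap.trace F V (r (g a * g b))).det ≠ 0) :
    Submodule.span F (r '' S) = ⊤ := by
  classical
  have hfin : Module.Finite F V := Module.finite_of_finrank_eq_succ hV
  let b : Module.Basis (Fin 2) F V := Module.finBasisOfFinrankEq F V hV
  rw [gram_trace_eq r b g] at hdet
  have hflat : (Fermat.Agent.S53.Schur.flat fun a => LinearMap.toMatrix b b (r (g a))).det ≠ 0 :=
    fun h => hdet (det_flat_eq_zero_of_gram _ h)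
  rw [eq_top_iff]
  intro y _
  obtain ⟨c, hc⟩ := Fermat.Agent.S53.Schur.exists_eq_sum_of_isUnit_det
    (fun a => LinearMap.toMatrix b b (r (g a))) (isUnit_iff_ne_zero.mpr hflat)
    (LinearMap.toMatrix b b y)
  have hy : y = ∑ a, c a • r (g a) := by
    apply (LinearMap.toMatrix b b).injective
    rw [hc, map_sum]
    refine Finset.sum_congr rfl fun a _ => ?_
    rw [map_smul]
  rw [hy]
  refine Submodule.sum_mem _ fun a _ => Submodule.smul_mem _ _ ?_
  exact Submodule.subset_span ⟨g a, hg a, rfl⟩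

/-- Base change of a representation, as a monoid homomorphism. -/
noncomputable def baseChangeRep (K : Type*) [Field K] [Algebra F K] (r : G →* Module.End F V) :
    G →* Module.End K (K ⊗[F] V) where
  toFun := fun g => (r g).baseChange K
  map_one' := by rw [map_one, LinearMap.baseChange_one]
  map_mul' := fun a b => by rw [map_mul, LinearMap.baseChange_mul]

theorem baseChangeRep_apply (K : Type*) [Field K] [Algebra F K] (r : G →* Module.End F V)
    (g : G) : baseChangeRep K r g = (r g).baseChange K := rfl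

/-- Gram matrices commute with base change. -/
theorem gram_baseChange (K : Type*) [Field K] [Algebra F K] (hV : Module.finrank F V = 2)
    (r : G →* Module.End F V) (g : Fin 2 × Fin 2 → G) :
    (Matrix.of fun a b => LinearMap.trace K (K ⊗[F] V) (baseChangeRep K r (g a * g b))).det =
      algebraMap F K (Matrix.of fun a b => LinearMap.trace F V (r (g a * g b))).det := by
  have hfin : Module.Finite F V := Module.finite_of_finrank_eq_succ hV
  have hmap : (Matrix.of fun a b =>
        LinearMap.trace K (K ⊗[F] V) (baseChangeRep K r (g a * g b))) =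
      (Matrix.of fun a b => LinearMap.trace F V (r (g a * g b))).map (algebraMap F K) := by
    ext a b
    simp only [Matrix.of_apply, Matrix.map_apply]
    exact LinearMap.trace_baseChange (r (g a * g b)) K
  rw [hmap, ← RingHom.mapMatrix_apply, ← RingHom.map_det]

/-- A representation whose image spans `End V` is irreducible over every extension field. -/
theorem irr_baseChange_of_span (K : Type*) [Field K] [Algebra F K]
    (hV : Module.finrank F V = 2) (r : G →* Module.End F V)
    (hspan : Submodule.span F (Set.range r) = ⊤)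
    (W' : Submodule K (K ⊗[F] V))
    (hW' : ∀ g, ∀ x ∈ W', (r g).baseChange K x ∈ W') : W' = ⊥ ∨ W' = ⊤ := by
  classical
  by_contra hcon
  rw [not_or] at hcon
  obtain ⟨g, hg⟩ := exists_gram_ne_zero_of_span hV r hspan
  have hVK : Module.finrank K (K ⊗[F] V) = 2 := by rw [Module.finrank_baseChange, hV]
  have hz := gram_det_eq_zero_of_stable hVK (baseChangeRep K r) W' hW' hcon.1 hcon.2 g
  rw [gram_baseChange K hV r g] at hz
  exact hg ((map_eq_zero (algebraMap F K)).mp hz)

/-- If the image of a subgroup `H` does not span `End V`, there is an `H`-stable line over the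
algebraic closure (Burnside). -/
theorem exists_stable_of_not_span (K : Type*) [Field K] [Algebra F K] [IsAlgClosed K]
    (hV : Module.finrank F V = 2) (r : G →* Module.End F V) (H : Subgroup G)
    (hns : Submodule.span F (r '' (H : Set G)) ≠ ⊤) :
    ∃ V' : Submodule K (K ⊗[F] V), V' ≠ ⊥ ∧ V' ≠ ⊤ ∧
      ∀ h ∈ H, ∀ x ∈ V', (r h).baseChange K x ∈ V' := by
  classical
  by_contra hno
  push Not at hno
  apply hns
  have hVK : Module.finrank K (K ⊗[F] V) = 2 := by rw [Module.finrank_baseChange, hV]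
  have hfinK : Module.Finite K (K ⊗[F] V) := Module.finite_of_finrank_eq_succ hVK
  have hnt : Nontrivial (K ⊗[F] V) := Module.nontrivial_of_finrank_eq_succ hVK
  let ρH : H →* Module.End K (K ⊗[F] V) := (baseChangeRep K r).comp H.subtype
  have hirr : ∀ W' : Submodule K (K ⊗[F] V), (∀ g, ∀ x ∈ W', ρH g x ∈ W') → W' = ⊥ ∨ W' = ⊤ := by
    intro W' hW'
    by_contra hcon
    rw [not_or] at hcon
    obtain ⟨h, hh, x, hx, hxn⟩ := hno W' hcon.1 hcon.2
    exact hxn (hW' ⟨h, hh⟩ x hx)
  have hspan := Fermat.Agent.S53.Schur.span_range_eq_top_of_irreducible ρH hirr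
  obtain ⟨g, hg⟩ := exists_gram_ne_zero_of_span hVK ρH hspan
  have hg' : (Matrix.of fun a b =>
      LinearMap.trace F V (r ((g a : G) * (g b : G)))).det ≠ 0 := by
    intro h0
    apply hg
    have := gram_baseChange K hV r (fun a => (g a : G))
    rw [h0, map_zero] at this
    exact this
  exact span_eq_top_of_gram hV r (H : Set G) (fun a => (g a : G)) (fun a => (g a).2) hg'

end Gram

/-! ### The dihedral properties from a counterexample -/

section Tors

variable (W : WeierstrassCurve ℤ) (p : ℕ) [hpF : Fact p.Prime]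

theorem two_ne_zero_zmod (hp2 : p ≠ 2) : (2 : ZMod p) ≠ 0 := by
  intro h
  have h' : ((2 : ℕ) : ZMod p) = 0 := by exact_mod_cast h
  rw [ZMod.natCast_eq_zero_iff] at h'
  exact hp2 ((Nat.prime_dvd_prime_iff_eq hpF.out Nat.prime_two).mp h')

/-- `E[p]` is irreducible over `ZMod p`, in terms of `torsRho`. -/
theorem irr_tors (hirr : W.ModRepIsIrreducible p) (N : Submodule (ZMod p) (TorsW W p))
    (hN : ∀ g, ∀ x ∈ N, torsRho W p g x ∈ N) : N = ⊥ ∨ N = ⊤ :=
  hirr.2 N (fun σ x hx => hN σ x hx)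

/-- **The dihedral properties** for a subgroup of index two whose image does not span. -/
theorem dih_of_not_span (hΔ : W.Δ ≠ 0) (hp2 : p ≠ 2) (hirr : W.ModRepIsIrreducible p)
    (H : Subgroup GQ) (hH : H.index = 2)
    (hns : Submodule.span (ZMod p) ((torsRho W p) '' (H : Set GQ)) ≠ ⊤) :
    Dih (torsRho W p) H := by
  have hV := finrank_torsW W hΔ p
  obtain ⟨V', h0, h1, hstab⟩ :=
    exists_stable_of_not_span (AlgebraicClosure (ZMod p)) hV (torsRho W p) H hns
  obtain ⟨k1, k2, k3⟩ := kl (AlgebraicClosure (ZMod p)) (two_ne_zero_zmod p hp2) hV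
    (torsRho W p) H hH V' h0 h1 hstab
    (irr_baseChange_of_span _ hV (torsRho W p) (span_torsRho W hΔ p hp2 hirr))
  exact ⟨k1, k2, k3⟩

/-- The kernel of `torsRho` contains the pointwise stabiliser of a finite set. -/
theorem exists_finset_ker (hΔ : W.Δ ≠ 0) :
    ∃ S : Finset (AlgebraicClosure ℚ), ∀ σ : GQ, (∀ x ∈ S, σ x = x) → torsRho W p σ = 1 := by
  classical
  have hfr := finrank_torsW W hΔ p
  have : Module.Finite (ZMod p) (TorsW W p) := Module.finite_of_finrank_eq_succ hfr
  have : Finite (TorsW W p) := Module.finite_of_finite (ZMod p)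
  let _ : Fintype (TorsW W p) := Fintype.ofFinite _
  refine ⟨Finset.univ.biUnion fun v : TorsW W p =>
    coords (v : ((W.map (Int.castRingHom ℚ)).toAffine⁄(AlgebraicClosure ℚ)).Point), ?_⟩
  intro σ hσ
  refine LinearMap.ext fun v => ?_
  rw [Point.galoisRepModuleEnd_apply, Module.End.one_apply]
  refine smul_eq_of_fix_coords W p σ v fun x hx => hσ x ?_
  exact Finset.mem_biUnion.mpr ⟨v, Finset.mem_univ _, hx⟩

/-- Inertia at `q ≠ p` acts unipotently on `E[p]` (semistable case). -/
theorem unip_tors (hΔ : W.Δ ≠ 0) (hss : W.IsSemistableModel) (q : ℕ) (hq : q.Prime)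
    (hqp : q ≠ p) (A : ValuationSubring (AlgebraicClosure ℚ)) (hA : A.LiesOverPrime q)
    (σ : GQ) (hσ : σ ∈ A.inertiaSubgroupIn ℚ) :
    (torsRho W p σ - (1 : ZMod p) • 1) * (torsRho W p σ - (1 : ZMod p) • 1) = 0 := by
  have hnd : ¬ q ∣ p := fun h => hqp ((Nat.prime_dvd_prime_iff_eq hq hpF.out).mp h)
  refine LinearMap.ext fun v => ?_
  have key := Fermat.Agent.S52.H5.unip_torsionBy W q p A hΔ (hss q hq) hq hnd hA σ hσ v
  simp only [one_smul, Module.End.mul_apply, LinearMap.sub_apply, Module.End.one_apply,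
    Point.galoisRepModuleEnd_apply, LinearMap.zero_apply, map_sub]
  rw [sub_eq_zero]
  rw [_root_.smul_sub] at key
  exact key

/-- The determinant on `E[p]` is the mod `p` cyclotomic character (from T1, T2, T3c). -/
theorem det_torsRho_of_cyc (hΔ : W.Δ ≠ 0) (σ : GQ) (a : ℕ)
    (hσ : ∀ μ : AlgebraicClosure ℚ, μ ^ p = 1 → σ μ = μ ^ a) :
    LinearMap.det (torsRho W p σ) = (a : ZMod p) := by
  obtain ⟨D⟩ := Fermat.Agent.Tate.H46.stmt_T1 W hΔ p
  have hpO := natCast_mem_maximalIdeal_padicInt p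
  have hchar := charP_residueField hpF.out hpO
  have h2 := (Fermat.Agent.Tate.H4.stmt_T2 W hΔ p D).2 1 σ a
    (by intro μ hμ; rw [pow_one] at hμ; exact hσ μ hμ)
  have hmem : LinearMap.det (D.ρ.ρ σ) - (a : ℤ_[p]) ∈ IsLocalRing.maximalIdeal ℤ_[p] := by
    rw [pow_one] at h2
    exact (Ideal.span_singleton_le_iff_mem (IsLocalRing.maximalIdeal ℤ_[p])).mpr hpO h2
  have hres := (residual_trace_det W hΔ p hpO D.ρ (badSet W p)
    (Fermat.Agent.Tate.T7.H99.hasFrobOf_tateData W hΔ p D) σ).2
  have e2 : LinearMap.det (D.ρ.residual.ρ σ) =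
      IsLocalRing.residue ℤ_[p] (LinearMap.det (D.ρ.ρ σ)) :=
    LinearMap.det_baseChange (D.ρ.ρ σ)
  have e3 : IsLocalRing.residue ℤ_[p] (LinearMap.det (D.ρ.ρ σ)) =
      IsLocalRing.residue ℤ_[p] (a : ℤ_[p]) := by
    rw [← sub_eq_zero, ← map_sub]
    exact (IsLocalRing.residue_eq_zero_iff _).mpr hmem
  have key : ZMod.castHom (dvd_refl p) (IsLocalRing.ResidueField ℤ_[p])
        (LinearMap.det (torsRho W p σ)) =
      ZMod.castHom (dvd_refl p) (IsLocalRing.ResidueField ℤ_[p]) (a : ZMod p) := by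
    rw [← hres, e2, e3, map_natCast, map_natCast]
  exact (ZMod.castHom (dvd_refl p) (IsLocalRing.ResidueField ℤ_[p])).injective key

/-- Minkowski in the dihedral situation: a normal subgroup containing the kernel of `torsRho` and
the inertia group of one `A ∣ p` is everything (inertia at `q ≠ p` is unipotent, hence trivial). -/
theorem mink_tors (hΔ : W.Δ ≠ 0) (hss : W.IsSemistableModel) (H : Subgroup GQ)
    (hD : Dih (torsRho W p) H) (A : ValuationSubring (AlgebraicClosure ℚ))
    (hA : A.LiesOverPrime p) (N : Subgroup GQ) (hN : N.Normal)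
    (hker : ∀ g, torsRho W p g = 1 → g ∈ N) (hI : A.inertiaSubgroupIn ℚ ≤ N) : N = ⊤ := by
  apply Fermat.Agent.Lib.Minkowski.minkowski N hN
  · obtain ⟨S, hS⟩ := exists_finset_ker W p hΔ
    exact ⟨S, fun σ hσ => hker σ (hS σ hσ)⟩
  · intro ℓ hℓ
    by_cases hℓp : ℓ = p
    · exact ⟨A, hℓp.symm ▸ hA, hI⟩
    · obtain ⟨A', hA'⟩ := Fermat.Agent.Lib.FrobExists.exists_liesOverPrime ℓ hℓ
      refine ⟨A', hA', fun σ hσ => hker σ ?_⟩
      have := hD.sc σ 1 (unip_tors W p hΔ hss ℓ hℓ hℓp A' hA' σ hσ)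
      rw [this, one_smul]

omit hpF in
theorem mem_torsW {P : EQbar W} (hP : p • P = 0) :
    P ∈ Submodule.torsionBy ℤ
      ((W.map (Int.castRingHom ℚ)).toAffine⁄(AlgebraicClosure ℚ)).Point p := by
  rw [Submodule.mem_torsionBy_iff, natCast_zsmul]
  exact hP

omit hpF in
theorem torsW_nsmul (v : TorsW W p) : p • (v : EQbar W) = 0 := by
  have := v.2
  rw [Submodule.mem_torsionBy_iff, natCast_zsmul] at this
  exact this

/-- Supersingular type at `A`: the inertia group lies in `H`. -/
theorem le_of_ssAt (hΔ : W.Δ ≠ 0) (hp2 : p ≠ 2) (H : Subgroup GQ)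
    (hD : Dih (torsRho W p) H) (A : ValuationSubring (AlgebraicClosure ℚ))
    (hssA : SsAt W p A) : A.inertiaSubgroupIn ℚ ≤ H := by
  obtain ⟨hcomm, τ, hτ, hτn⟩ := hssA
  apply hD.le_of_ss (two_ne_zero_zmod p hp2) (finrank_torsW W hΔ p)
  · intro σ hσ τ' hτ' v
    rcases hcomm σ hσ τ' hτ' (v : EQbar W) (torsW_nsmul W p v) with h | h
    · left; exact Subtype.ext h
    · right; exact Subtype.ext h
  · refine ⟨τ, hτ, fun a ha => ?_⟩
    obtain ⟨P, hP, hne⟩ := hτn a.val
    apply hne
    have h1 := congrArg (fun f : Module.End (ZMod p) (TorsW W p) => f ⟨P, mem_torsW W p hP⟩) ha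
    simp only [Module.End.mul_apply, LinearMap.smul_apply, Module.End.one_apply,
      Point.galoisRepModuleEnd_apply] at h1
    have h2 : (a : ZMod p) • (⟨P, mem_torsW W p hP⟩ : TorsW W p) =
        a.val • (⟨P, mem_torsW W p hP⟩ : TorsW W p) := by
      conv_lhs => rw [← ZMod.natCast_zmod_val a]
      rw [Nat.cast_smul_eq_nsmul]
    rw [h2] at h1
    exact congrArg Subtype.val h1

omit hpF in
theorem zmod_three_units : ∀ a : ZMod 3, a ≠ 0 → a = 1 ∨ a = -1 := by decide

/-- Ordinary type at `A`: the inertia group lies in `H`. -/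
theorem le_of_ordAt (hΔ : W.Δ ≠ 0) (hss : W.IsSemistableModel) (hp2 : p ≠ 2)
    (hirr : W.ModRepIsIrreducible p) (hcyc : Stmt_CYC)
    (H : Subgroup GQ) (hH : H.index = 2) (hD : Dih (torsRho W p) H)
    (A : ValuationSubring (AlgebraicClosure ℚ)) (hA : A.LiesOverPrime p)
    (hord : OrdAt W p A) : A.inertiaSubgroupIn ℚ ≤ H := by
  obtain ⟨G', instG', c, ⟨P₀, hP₀, hcP₀⟩, hinv⟩ := hord
  have hV := finrank_torsW W hΔ p
  let cT : TorsW W p →+ G' :=
    c.comp (Submodule.torsionBy ℤ (EQbar W) (p : ℤ)).toAddSubgroup.subtype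
  have hcT : ∀ v : TorsW W p, cT v = c (v : EQbar W) := fun _ => rfl
  let T : Submodule (ZMod p) (TorsW W p) := AddSubgroup.toZModSubmodule p cT.ker
  have hmemT : ∀ v : TorsW W p, v ∈ T ↔ c (v : EQbar W) = 0 := by
    intro v
    rw [AddSubgroup.mem_toZModSubmodule, AddMonoidHom.mem_ker, hcT]
  have hT : T ≠ ⊤ := by
    intro h
    have : (⟨P₀, mem_torsW W p hP₀⟩ : TorsW W p) ∈ T := by rw [h]; trivial
    rw [hmemT] at this
    exact hcP₀ this
  have hI : ∀ σ ∈ A.inertiaSubgroupIn ℚ, ∀ v, torsRho W p σ v - v ∈ T := by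
    intro σ hσ v
    rw [hmemT, Point.galoisRepModuleEnd_apply]
    have e : (((σ • v - v : TorsW W p)) : EQbar W) = σ • (v : EQbar W) - (v : EQbar W) := rfl
    rw [e, map_sub, hinv σ hσ, sub_self]
  by_cases h3 : p = 3
  · subst h3
    exact hD.le_of_ord_units (two_ne_zero_zmod 3 hp2) hV hH (irr_tors W 3 hirr)
      zmod_three_units (A.inertiaSubgroupIn ℚ)
      (fun N hN hk hIN => mink_tors W 3 hΔ hss H hD A hA N hN hk hIN) T hT hI
  · have hnd : ¬ p ∣ 2 := fun h =>
      hp2 ((Nat.prime_dvd_prime_iff_eq hpF.out Nat.prime_two).mp h)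
    obtain ⟨τ, hτ, hτμ⟩ := hcyc p hpF.out A hA 2 hnd
    have hdet := det_torsRho_of_cyc W p hΔ τ 2 hτμ
    refine hD.le_of_ord hV (A.inertiaSubgroupIn ℚ) T hT hI ⟨τ, hτ, ?_⟩
    rw [hdet]
    intro h
    have h' : ((3 : ℕ) : ZMod p) = 0 := by
      have : ((2 : ℕ) : ZMod p) * ((2 : ℕ) : ZMod p) - 1 = 0 := by rw [h, sub_self]
      push_cast at this ⊢
      linear_combination this
    rw [ZMod.natCast_eq_zero_iff] at h'
    exact h3 ((Nat.prime_dvd_prime_iff_eq hpF.out Nat.prime_three).mp h')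

/-- **TWT** from the local packages. -/
theorem stmt_TWT_of (hbad : Stmt_LOCbad) (hgood : Stmt_LOCgood) (hlss : Stmt_LOCss)
    (hcyc : Stmt_CYC) : Stmt_TWT := by
  intro W hΔ hss p hpF hp2 hirr H hH
  by_contra hns
  have hD := dih_of_not_span W p hΔ hp2 hirr H hH hns
  have hV := finrank_torsW W hΔ p
  obtain ⟨A, hA⟩ := Fermat.Agent.Lib.FrobExists.exists_liesOverPrime p hpF.out
  have hIH : A.inertiaSubgroupIn ℚ ≤ H := by
    by_cases hgd : W.IsGoodPrimeFor p
    · by_cases hk : AllInKer W p A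
      · exact le_of_ssAt W p hΔ hp2 H hD A (hlss W hΔ p hpF.out hp2 A hA hk)
      · exact le_of_ordAt W p hΔ hss hp2 hirr hcyc H hH hD A hA
          (hgood W hΔ p hpF.out hp2 hgd A hA hk)
    · exact le_of_ordAt W p hΔ hss hp2 hirr hcyc H hH hD A hA
        (hbad W hΔ hss p hpF.out hp2 hgd A hA)
  have htop := mink_tors W p hΔ hss H hD A hA H (Subgroup.normal_of_index_eq_two hH)
    (fun g hg => hD.ker_mem (two_ne_zero_zmod p hp2) hV hg) hIH
  rw [htop, Subgroup.index_top] at hH
  exact absurd hH (by decide)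

end Tors

end Fermat.Agent.Tate.T7.H7
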