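/-
Tate T7, package RAD (helper97): tame ramification of radicals.

If `|z|^e = |p|⁻¹` with `e ≥ 2` prime to `p`, some element of the inertia group at `A ∣ p` moves
`z` modulo `z · 𝔪_A`.

Route: otherwise inertia fixes an `e`-th root `y` of `p` (`z y` is a unit, so `σ y / y` is an
`e`-th root of unity congruent to `1`, hence `1`), and then `e ∣ v_p(p) = 1` by the Kummer
valuation lemma of `S15/Desc/H97_GlobVal.lean`.
-/
import Fermat.Agent.Tate.T7.Defs
import Fermat.Agent.S15.Desc.H97_GlobVal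
import Fermat.Agent.S05.Inertia
import Fermat.Agent.R.H89_FrobCyc

set_option autoImplicit false

namespace Fermat.Agent.Tate.T7.H97

open Fermat.Agent.S15.Desc.H97 (valuation_ratCast_eq_zpow zpow_valuation_injective)

/-- **Kummer valuation**, general exponent: if inertia at `ℓ` fixes an `e`-th root `γ` of
`a ∈ ℚˣ`, `e` prime to `ℓ`, then `e ∣ v_ℓ(a)`. -/
theorem kummer_val_coprime (A : ValuationSubring Qb) {ℓ : ℕ} (hℓ : ℓ.Prime)
    (hA : A.LiesOverPrime ℓ) {e : ℕ} (he : e.Coprime ℓ) (he0 : e ≠ 0) (a : ℚ) (ha : a ≠ 0)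
    (γ : Qb) (hγ : γ ^ e = algebraMap ℚ Qb a)
    (hfix : ∀ σ ∈ A.inertiaSubgroupIn ℚ, σ γ = γ) : (e : ℤ) ∣ padicValRat ℓ a := by
  have hγ0 : γ ≠ 0 := by
    rintro rfl
    rw [zero_pow he0] at hγ
    exact ha ((map_eq_zero (algebraMap ℚ Qb)).1 hγ.symm)
  set S : Set Qb := {x | x ^ e = algebraMap ℚ Qb a} with hS
  have hSfin : S.Finite := by
    have hne : (Polynomial.X ^ e - Polynomial.C (algebraMap ℚ Qb a) : Polynomial Qb) ≠ 0 :=
      Polynomial.X_pow_sub_C_ne_zero (Nat.pos_of_ne_zero he0) _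
    refine Set.Finite.subset (Polynomial.finite_setOfPred_isRoot hne) ?_
    intro x hx
    have hx' : x ^ e = algebraMap ℚ Qb a := hx
    show Polynomial.IsRoot _ x
    simp [hx']
  have hstab : ∀ σ : GQ, ∀ x ∈ S, σ x ∈ S := by
    intro σ x hx
    have hx' : x ^ e = algebraMap ℚ Qb a := hx
    show (σ x) ^ e = algebraMap ℚ Qb a
    rw [← map_pow, hx', AlgEquiv.commutes]
  have hfixS : ∀ σ ∈ A.inertiaSubgroupIn ℚ, ∀ x ∈ S, σ x = x := by
    intro σ hσ x hx
    have hx' : x ^ e = algebraMap ℚ Qb a := hx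
    have hζ : (x / γ) ^ e = 1 := by
      rw [div_pow, hx', hγ]
      exact div_self ((map_ne_zero (algebraMap ℚ Qb)).2 ha)
    have h1 : σ (x / γ) = x / γ :=
      Fermat.Agent.S52.H97.inertia_fixes_root A hA hℓ.ne_one σ hσ he hζ
    have h2 : x = (x / γ) * γ := by field_simp
    rw [h2, map_mul, h1, hfix σ hσ]
  obtain ⟨k, hk⟩ := Fermat.Agent.Lib.UnramVal.valuation_eq_zpow_of_finite ℓ hℓ A hA S hSfin
    hstab hfixS γ hγ hγ0
  have h3 : A.valuation (algebraMap ℚ Qb a) = A.valuation (ℓ : Qb) ^ (k * e) := by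
    rw [← hγ, map_pow, hk, zpow_mul, zpow_natCast]
  rw [valuation_ratCast_eq_zpow A hℓ hA a ha] at h3
  have h4 := zpow_valuation_injective A hℓ hA h3
  exact ⟨k, by rw [h4]; ring⟩

/-- **T7-RAD**. -/
theorem stmt_RAD : Stmt_RAD := by
  intro p hp A hA z e he2 hpe hz
  by_contra hcon
  have hall : ∀ σ ∈ A.inertiaSubgroupIn ℚ, A.valuation (σ z - z) < A.valuation z := by
    intro σ hσ
    by_contra h
    exact hcon ⟨σ, hσ, h⟩
  have he0 : e ≠ 0 := by omega
  have hp0 : (p : Qb) ≠ 0 := by exact_mod_cast hp.ne_zero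
  have hz0 : z ≠ 0 := by
    rintro rfl
    rw [zero_pow he0, zero_mul, map_zero] at hz
    exact zero_ne_one hz
  obtain ⟨y, hy⟩ := IsAlgClosed.exists_pow_nat_eq (p : Qb) (n := e) (by omega)
  have hy0 : y ≠ 0 := by
    rintro rfl
    rw [zero_pow he0] at hy
    exact hp0 hy.symm
  have hvz : 0 < A.valuation z := lt_of_le_of_ne zero_le (Ne.symm ((Valuation.ne_zero_iff _).2 hz0))
  have hvy : 0 < A.valuation y := lt_of_le_of_ne zero_le (Ne.symm ((Valuation.ne_zero_iff _).2 hy0))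
  have hw : A.valuation (z * y) = 1 := by
    have h1 : A.valuation (z * y) ^ e = 1 := by
      rw [← map_pow, mul_pow, hy]
      exact hz
    exact (pow_eq_one_iff.1 h1).resolve_right he0
  have hcop : e.Coprime p := (Nat.Coprime.symm ((Nat.Prime.coprime_iff_not_dvd hp).2 hpe))
  have heA : (e : Qb) ∉ A.nonunits :=
    Fermat.Agent.R.H2.natCast_not_mem_nonunits_of_coprime A hcop hA
  have key : ∀ σ ∈ A.inertiaSubgroupIn ℚ, σ y = y := by
    intro σ hσ
    obtain ⟨hval, hres⟩ := Fermat.Agent.S05.inertia A σ hσ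
    have h1 : A.valuation (σ (z * y) - z * y) < 1 := hres _ hw.le
    have h2 := hall σ hσ
    have e1 : z * (σ y - y) = (σ (z * y) - z * y) - (σ z - z) * σ y := by
      rw [map_mul]; ring
    have h3 : A.valuation (z * (σ y - y)) < A.valuation z * A.valuation y := by
      rw [e1]
      refine lt_of_le_of_lt (Valuation.map_sub _ _ _) (max_lt ?_ ?_)
      · rw [← map_mul, hw]; exact h1
      · rw [map_mul, hval y]
        exact mul_lt_mul_of_pos_right h2 hvy
    rw [map_mul] at h3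
    have h4 : A.valuation (σ y - y) < A.valuation y := lt_of_mul_lt_mul_left h3 zero_le
    have hζ : (σ y / y) ^ e = 1 := by
      rw [div_pow, ← map_pow, hy, map_natCast]
      exact div_self hp0
    have h5 : σ y / y - 1 ∈ A.nonunits := by
      rw [A.mem_nonunits_iff]
      have e2 : σ y / y - 1 = (σ y - y) / y := by field_simp
      rw [e2, map_div₀]
      exact (div_lt_one₀ hvy).2 h4
    have h6 := Fermat.Agent.R.H89.h89_eq_of_sub_mem' A e heA hζ (one_pow e) h5
    have h7 : σ y = (σ y / y) * y := by field_simp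
    rw [h7, h6, one_mul]
  have hdvd := kummer_val_coprime A hp hA hcop he0 (p : ℚ) (by exact_mod_cast hp.ne_zero) y
    (by rw [hy]; simp) key
  rw [padicValRat.self hp.one_lt] at hdvd
  have h8 : (e : ℤ) ∣ ((1 : ℕ) : ℤ) := by simpa using hdvd
  have h9 : e ∣ 1 := Int.natCast_dvd_natCast.1 h8
  have := Nat.le_of_dvd one_pos h9
  omega

end Fermat.Agent.Tate.T7.H97
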