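import Fermat.Agent.Tate.T7.H99_T7a

/-!
# Tate T7 XFER: the torsion form TWT gives the Taylor–Wiles condition (helper99)

`stmt_XFER : Stmt_XFER` (`= Stmt_TWT → Stmt_T7b`), and `stmt_T7_of_TWT : Stmt_TWT → Stmt_T7`.

Gram criterion: if the image of `H` spans `End (E[p])` there are `g : Fin 2 × Fin 2 → H` with
`det (tr r(g_a g_b)) ≠ 0` over `ZMod p`; the traces of `D.ρ.residual` are the traces on `E[p]`;
a proper nonzero `H`-stable subspace over any extension field forces that determinant to vanish.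
-/

set_option autoImplicit false

open IsLocalRing

namespace Fermat.Agent.Tate.T7.H99

open Fermat.Agent.S58 Fermat.Agent.S58.H99

/-- Gram criterion for a subgroup: a residual representation with a nonvanishing Gram
determinant on elements of `H` has no proper nonzero `H`-stable subspace over any extension
field. -/
theorem twCond_of_gram {k : Type} [Field k] (ρbar : ResidualGaloisRep k)
    (K : Type) [Field K] [Algebra k K]
    (H : Subgroup (AlgebraicClosure ℚ ≃ₐ[ℚ] AlgebraicClosure ℚ))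
    (g : Fin 2 × Fin 2 → H)
    (h : (Matrix.of fun a b =>
      LinearMap.trace k ρbar.V (ρbar.ρ ((g a : AlgebraicClosure ℚ ≃ₐ[ℚ] AlgebraicClosure ℚ) *
        (g b : AlgebraicClosure ℚ ≃ₐ[ℚ] AlgebraicClosure ℚ)))).det ≠ 0)
    (V : Submodule K (ρbar.baseChange K).V)
    (hV : ∀ σ ∈ H, ∀ x ∈ V, (ρbar.baseChange K).ρ σ x ∈ V) : V = ⊥ ∨ V = ⊤ := by
  classical
  by_contra hcon
  rw [not_or] at hcon
  apply h
  have hfin : Module.finrank K (ρbar.baseChange K).V = 2 := (ρbar.baseChange K).finrank_eq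
  have hz := gram_det_eq_zero_of_stable hfin (((ρbar.baseChange K).ρ).comp H.subtype) V
    (fun σ x hx => hV σ.1 σ.2 x hx) hcon.1 hcon.2 g
  have hmap : (Matrix.of fun a b => LinearMap.trace K (ρbar.baseChange K).V
      ((((ρbar.baseChange K).ρ).comp H.subtype) (g a * g b))) =
      (Matrix.of fun a b => LinearMap.trace k ρbar.V
        (ρbar.ρ ((g a : AlgebraicClosure ℚ ≃ₐ[ℚ] AlgebraicClosure ℚ) *
          (g b : AlgebraicClosure ℚ ≃ₐ[ℚ] AlgebraicClosure ℚ)))).map (algebraMap k K) := by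
    ext a b
    simp only [Matrix.of_apply, Matrix.map_apply]
    exact LinearMap.trace_baseChange (ρbar.ρ ((g a : AlgebraicClosure ℚ ≃ₐ[ℚ] AlgebraicClosure ℚ) *
      (g b : AlgebraicClosure ℚ ≃ₐ[ℚ] AlgebraicClosure ℚ))) K
  rw [hmap, ← RingHom.mapMatrix_apply, ← RingHom.map_det] at hz
  exact (map_eq_zero (algebraMap k K)).mp hz

/-- **XFER.** -/
theorem stmt_XFER : Stmt_XFER := by
  intro hTWT W hΔ hss p hpF hp2 D hirr K _ _ H hH V hV
  classical
  have hp : p.Prime := hpF.out
  have hpO : (p : ℤ_[p]) ∈ maximalIdeal ℤ_[p] := natCast_mem_maximalIdeal_padicInt p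
  have := charP_residueField hp hpO
  have hspan := hTWT W hΔ hss p hp2 hirr H hH
  have hspan' : Submodule.span (ZMod p) (Set.range ((torsRho W p).comp H.subtype)) = ⊤ := by
    rw [← hspan]
    congr 1
    ext x
    constructor
    · rintro ⟨σ, rfl⟩
      exact ⟨σ.1, σ.2, rfl⟩
    · rintro ⟨σ, hσ, rfl⟩
      exact ⟨⟨σ, hσ⟩, rfl⟩
  obtain ⟨g, hg⟩ := exists_gram_ne_zero_of_span (finrank_torsW W hΔ p)
    ((torsRho W p).comp H.subtype) hspan'
  refine twCond_of_gram D.ρ.residual K H g ?_ V hV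
  have hmap : (Matrix.of fun a b =>
        LinearMap.trace (ResidueField ℤ_[p]) D.ρ.residual.V
          (D.ρ.residual.ρ ((g a : GQ) * (g b : GQ)))) =
      (Matrix.of fun a b =>
        LinearMap.trace (ZMod p) (TorsW W p) (((torsRho W p).comp H.subtype) (g a * g b))).map
        (ZMod.castHom (dvd_refl p) (ResidueField ℤ_[p])) := by
    ext a b
    simp only [Matrix.of_apply, Matrix.map_apply]
    exact (residual_trace_det W hΔ p hpO D.ρ (badSet W p) (hasFrobOf_tateData W hΔ p D)
      ((g a : GQ) * (g b : GQ))).1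
  rw [hmap, ← RingHom.mapMatrix_apply, ← RingHom.map_det]
  exact fun h0 => hg ((map_eq_zero _).mp h0)

/-- **T7 from TWT.** -/
theorem stmt_T7_of_TWT (h : Stmt_TWT) : Stmt_T7 :=
  stmt_T7_of stmt_T7a (stmt_XFER h)

end Fermat.Agent.Tate.T7.H99
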