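/-
Tate T7 (helper7, assembly): `stmt_T7 : Tate.Stmt_T7`, unconditional.

Packages: T7a + XFER (helper99), CYC + LOCss assembly (helper52), RAD (helper97),
SSval/SSsep/SSmul (helper46), LOCbad (helper14), LOCgood + algebra + TWT (helper7).
-/
import Fermat.Agent.Tate.T7.H7_TWT
import Fermat.Agent.Tate.T7.H7_LOCgood
import Fermat.Agent.Tate.T7.H14_LOCbad
import Fermat.Agent.Tate.T7.H52_LOCss
import Fermat.Agent.Tate.T7.H52_Cyc
import Fermat.Agent.Tate.T7.H97_Rad
import Fermat.Agent.Tate.T7.H46_SS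
import Fermat.Agent.Tate.T7.H99_Xfer

set_option autoImplicit false

namespace Fermat.Agent.Tate.T7

/-- **LOCss**: supersingular type when all of `E[p]` lies in the kernel of reduction. -/
theorem stmt_LOCss : Stmt_LOCss :=
  H52.stmt_LOCss_of H97.stmt_RAD H46.stmt_SSval H46.stmt_SSsep H46.stmt_SSmul

/-- **TWT**: the image of every subgroup of index two spans `End (E[p])`. -/
theorem stmt_TWT : Stmt_TWT :=
  H7.stmt_TWT_of H14.stmt_LOCbad H7.stmt_LOCgood stmt_LOCss H52.stmt_CYC

/-- **T7b**: the Taylor–Wiles condition. -/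
theorem stmt_T7b : Stmt_T7b := H99.stmt_XFER stmt_TWT

/-- **T7**: residual absolute irreducibility and the Taylor–Wiles condition. -/
theorem stmt_T7 : Fermat.Agent.Tate.Stmt_T7 := H99.stmt_T7_of_TWT stmt_TWT

end Fermat.Agent.Tate.T7
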