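/-
Stmt_Tate part T7, packages SSval / SSsep / SSmul (helper46): the valuation-theoretic core.

`A` is a valuation subring of a field `L`, `v = A.valuation`.
* `eval_sub_top_lt` : for `1 < v x`, the top term of a polynomial dominates.
* `coeff_lt_coeff_zero` : if all roots of `∏ (X - a)` are outside `A`, the constant coefficient
  strictly dominates all the others.
* `Eis` : the "Eisenstein at infinity" package for `f ∈ ℤ[X]` with leading coefficient `p`, all of
  whose roots in `L` are outside `A` (`A` over `p`):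
  `Eis.val_root` (`v (x ^ n * p) = 1`) and `Eis.root_sep` (roots are incongruent mod `x 𝔪`).
-/
import Mathlib.RingTheory.Valuation.ValuationSubring
import Mathlib.Algebra.Polynomial.Splits
import Mathlib.Algebra.Polynomial.Derivative
import Mathlib.Algebra.Polynomial.Eval.Degree
import Mathlib.FieldTheory.IsAlgClosed.Basic
import Mathlib.Data.Nat.Prime.Int

set_option autoImplicit false

namespace Fermat.Agent.Tate.T7.H46

open Polynomial

variable {L : Type*} [Field L] (A : ValuationSubring L)

/-- For `1 < v x` a sum of lower terms is dominated. -/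
lemma map_sum_range_lt {x : L} (hx : 1 < A.valuation x) {B : A.ValueGroup} (hB : B ≠ 0)
    (a : ℕ → L) (d : ℕ) (ha : ∀ k < d, A.valuation (a k) ≤ B) :
    A.valuation (∑ k ∈ Finset.range d, a k * x ^ k) < B * A.valuation x ^ d := by
  have hx0 : (0 : A.ValueGroup) < A.valuation x := lt_trans zero_lt_one hx
  have hB0 : 0 < B := zero_lt_iff.mpr hB
  apply Valuation.map_sum_lt _ (mul_ne_zero hB (pow_ne_zero _ (ne_of_gt hx0)))
  intro k hk
  rw [Finset.mem_range] at hk
  rw [map_mul, map_pow]
  calc A.valuation (a k) * A.valuation x ^ k ≤ B * A.valuation x ^ k :=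
        mul_le_mul' (ha k hk) le_rfl
    _ < B * A.valuation x ^ d :=
        mul_lt_mul_of_pos_left (pow_lt_pow_right₀ hx hk) hB0

/-- For `1 < v x` the top term of a polynomial dominates. -/
lemma eval_sub_top_lt {x : L} (hx : 1 < A.valuation x) {B : A.ValueGroup} (hB : B ≠ 0)
    (P : L[X]) (d : ℕ) (hd : P.natDegree ≤ d) (ha : ∀ k < d, A.valuation (P.coeff k) ≤ B) :
    A.valuation (P.eval x - P.coeff d * x ^ d) < B * A.valuation x ^ d := by
  rw [eval_eq_sum_range' (Nat.lt_succ_of_le hd), Finset.sum_range_succ, add_sub_cancel_right]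
  exact map_sum_range_lt A hx hB _ d ha

/-- For `1 < v x` the valuation of a polynomial with dominant top coefficient. -/
lemma val_eval_eq {x : L} (hx : 1 < A.valuation x) {B : A.ValueGroup} (hB : B ≠ 0)
    (P : L[X]) (d : ℕ) (hd : P.natDegree ≤ d) (ha : ∀ k < d, A.valuation (P.coeff k) ≤ B)
    (htop : A.valuation (P.coeff d) = B) :
    A.valuation (P.eval x) = B * A.valuation x ^ d := by
  have h := eval_sub_top_lt A hx hB P d hd ha
  have e : A.valuation (P.coeff d * x ^ d) = B * A.valuation x ^ d := by
    rw [map_mul, map_pow, htop]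
  rw [← e] at h ⊢
  exact Valuation.map_eq_of_sub_lt _ h

/-- If all `a ∈ s` are outside `A`, the constant coefficient of `∏ (X - a)` strictly dominates
the other coefficients. -/
lemma coeff_lt_coeff_zero (s : Multiset L) (hs : ∀ a ∈ s, 1 < A.valuation a) :
    A.valuation ((s.map (fun a => X - C a)).prod.coeff 0) ≠ 0 ∧
      ∀ k, 1 ≤ k → A.valuation ((s.map (fun a => X - C a)).prod.coeff k) <
        A.valuation ((s.map (fun a => X - C a)).prod.coeff 0) := by
  induction s using Multiset.induction with
  | empty =>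
    refine ⟨by simp, fun k hk => ?_⟩
    have : (1 : L[X]).coeff k = 0 := by
      rw [coeff_one, if_neg (by omega)]
    simp [this]
  | cons a t ih =>
    have ha : 1 < A.valuation a := hs a (Multiset.mem_cons_self a t)
    have ha0 : (0 : A.ValueGroup) < A.valuation a := lt_trans zero_lt_one ha
    obtain ⟨h0, hk⟩ := ih (fun b hb => hs b (Multiset.mem_cons_of_mem hb))
    set q := (t.map (fun a => X - C a)).prod with hq
    have e : ((a ::ₘ t).map (fun a => X - C a)).prod = q * (X - C a) := by
      rw [Multiset.map_cons, Multiset.prod_cons, mul_comm]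
    rw [e]
    have e0 : (q * (X - C a)).coeff 0 = - (q.coeff 0 * a) := by
      rw [mul_coeff_zero]; simp
    have hq0 : (0 : A.ValueGroup) < A.valuation (q.coeff 0) := zero_lt_iff.mpr h0
    have v0 : A.valuation ((q * (X - C a)).coeff 0) = A.valuation (q.coeff 0) * A.valuation a := by
      rw [e0, Valuation.map_neg, map_mul]
    refine ⟨?_, ?_⟩
    · rw [v0]; exact mul_ne_zero h0 (ne_of_gt ha0)
    · intro k hk1
      obtain ⟨j, rfl⟩ : ∃ j, k = j + 1 := ⟨k - 1, by omega⟩
      rw [coeff_mul_X_sub_C, v0]
      apply Valuation.map_sub_lt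
      · have h1 : A.valuation (q.coeff j) ≤ A.valuation (q.coeff 0) := by
          rcases Nat.eq_zero_or_pos j with rfl | hj
          · exact le_rfl
          · exact le_of_lt (hk j hj)
        calc A.valuation (q.coeff j) ≤ A.valuation (q.coeff 0) := h1
          _ = A.valuation (q.coeff 0) * 1 := (mul_one _).symm
          _ < A.valuation (q.coeff 0) * A.valuation a := mul_lt_mul_of_pos_left ha hq0
      · rw [map_mul]
        exact mul_lt_mul_of_pos_right (hk (j + 1) (by omega)) ha0

/-! ### Integers in `A` -/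

lemma val_intCast_le_one (m : ℤ) : A.valuation (m : L) ≤ 1 :=
  (A.valuation_le_one_iff _).mpr (intCast_mem A m)

lemma val_natCast_le_one (m : ℕ) : A.valuation (m : L) ≤ 1 :=
  (A.valuation_le_one_iff _).mpr (natCast_mem A m)

variable {A}

lemma dvd_of_val_intCast_lt_one {p : ℕ} (hp : p.Prime) (hpA : (p : L) ∈ A.nonunits) {m : ℤ}
    (h : A.valuation (m : L) < 1) : (p : ℤ) ∣ m := by
  by_contra hnd
  have hcop : IsCoprime (p : ℤ) m :=
    (Prime.coprime_iff_not_dvd (Nat.prime_iff_prime_int.mp hp)).mpr hnd
  obtain ⟨a, b, hab⟩ := hcop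
  have h1 : A.valuation ((a : L) * (p : L) + (b : L) * (m : L)) < 1 := by
    apply Valuation.map_add_lt
    · rw [map_mul]
      calc A.valuation (a : L) * A.valuation (p : L) ≤ 1 * A.valuation (p : L) :=
            mul_le_mul' (val_intCast_le_one A a) le_rfl
        _ = A.valuation (p : L) := one_mul _
        _ < 1 := hpA
    · rw [map_mul]
      calc A.valuation (b : L) * A.valuation (m : L) ≤ 1 * A.valuation (m : L) :=
            mul_le_mul' (val_intCast_le_one A b) le_rfl
        _ = A.valuation (m : L) := one_mul _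
        _ < 1 := h
  have h2 : ((a : L) * (p : L) + (b : L) * (m : L)) = 1 := by
    have := congrArg (Int.cast : ℤ → L) hab
    push_cast at this
    exact this
  rw [h2, map_one] at h1
  exact lt_irrefl _ h1

lemma val_intCast_le_of_dvd {p : ℕ} {m : ℤ} (h : (p : ℤ) ∣ m) :
    A.valuation (m : L) ≤ A.valuation (p : L) := by
  obtain ⟨c, rfl⟩ := h
  push_cast
  rw [map_mul]
  calc A.valuation (p : L) * A.valuation (c : L) ≤ A.valuation (p : L) * 1 :=
        mul_le_mul' le_rfl (val_intCast_le_one A c)
    _ = A.valuation (p : L) := mul_one _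

lemma val_natCast_eq_one_of_not_dvd {p : ℕ} (hp : p.Prime) (hpA : (p : L) ∈ A.nonunits) {m : ℕ}
    (h : ¬ p ∣ m) : A.valuation (m : L) = 1 := by
  rcases lt_or_eq_of_le (val_natCast_le_one A m) with h1 | h1
  · exfalso
    have h2 : A.valuation (((m : ℤ) : L)) < 1 := by simpa using h1
    exact h (Int.natCast_dvd_natCast.mp (dvd_of_val_intCast_lt_one hp hpA h2))
  · exact h1

/-! ### Eisenstein at infinity -/

/-- A product of elements `≤ r`, one of which is `< r`, is `< r ^ card`. -/
lemma multiset_prod_lt_pow {Γ : Type*} [LinearOrderedCommGroupWithZero Γ] (T : Multiset Γ) {r : Γ}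
    (hr : 0 < r) (hT : ∀ t ∈ T, t ≤ r) {t₀ : Γ} (ht₀ : t₀ ∈ T) (hlt : t₀ < r) :
    T.prod < r ^ Multiset.card T := by
  obtain ⟨T', rfl⟩ := Multiset.exists_cons_of_mem ht₀
  rw [Multiset.prod_cons, Multiset.card_cons, pow_succ']
  have h1 : T'.prod ≤ r ^ Multiset.card T' :=
    Multiset.prod_le_pow_card T' r (fun x hx => hT x (Multiset.mem_cons_of_mem hx))
  calc t₀ * T'.prod ≤ t₀ * r ^ Multiset.card T' := mul_le_mul' le_rfl h1
    _ < r * r ^ Multiset.card T' := mul_lt_mul_of_pos_right hlt (pow_pos hr _)

section Eis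

variable {p : ℕ} (hp : p.Prime) (hpA : (p : L) ∈ A.nonunits) (hp0 : (p : L) ≠ 0)
  {f : ℤ[X]} {n : ℕ} (hn : 1 ≤ n) (hdeg : f.natDegree = n) (hlead : f.leadingCoeff = p)
  (hsplit : (f.map (Int.castRingHom L)).Splits)
  (hroot : ∀ x : L, (f.map (Int.castRingHom L)).eval x = 0 → x ∉ A)

include hp0 hdeg hlead in
lemma Eis.natDegree_map : (f.map (Int.castRingHom L)).natDegree = n := by
  rw [natDegree_map_of_leadingCoeff_ne_zero, hdeg]
  rw [hlead]; simpa using hp0

include hp0 hlead in
lemma Eis.leadingCoeff_map : (f.map (Int.castRingHom L)).leadingCoeff = (p : L) := by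
  rw [leadingCoeff_map_of_leadingCoeff_ne_zero, hlead]
  · simp
  · rw [hlead]; simpa using hp0

include hp0 hlead in
lemma Eis.map_ne_zero : f.map (Int.castRingHom L) ≠ 0 := by
  intro h
  have := Eis.leadingCoeff_map hp0 hlead
  rw [h, leadingCoeff_zero] at this
  exact hp0 this.symm

include hp hpA hp0 hn hdeg hlead hsplit hroot in
/-- The shape of the coefficients: `f ≡ c₀ mod p` with `c₀` a unit at `p`. -/
lemma Eis.coeff : A.valuation ((f.coeff 0 : ℤ) : L) = 1 ∧ ∀ k, 1 ≤ k → (p : ℤ) ∣ f.coeff k := by
  set g := f.map (Int.castRingHom L) with hg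
  have hg0 : g ≠ 0 := Eis.map_ne_zero hp0 hlead
  have hfac : g = C (p : L) * (g.roots.map (fun a => X - C a)).prod := by
    have := hsplit.eq_prod_roots
    rwa [Eis.leadingCoeff_map hp0 hlead] at this
  have hs : ∀ a ∈ g.roots, 1 < A.valuation a := by
    intro a ha
    have h1 : g.eval a = 0 := (mem_roots hg0).mp ha
    exact not_le.mp (fun h => hroot a h1 ((A.valuation_le_one_iff a).mp h))
  obtain ⟨h0, hk⟩ := coeff_lt_coeff_zero A g.roots hs
  set q := (g.roots.map (fun a => X - C a)).prod with hq
  have hc : ∀ k, ((f.coeff k : ℤ) : L) = (p : L) * q.coeff k := by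
    intro k
    have : g.coeff k = ((f.coeff k : ℤ) : L) := by rw [hg, coeff_map]; simp
    rw [← this, hfac, coeff_C_mul]
  have hvp : (0 : A.ValueGroup) < A.valuation (p : L) :=
    zero_lt_iff.mpr ((Valuation.ne_zero_iff _).mpr hp0)
  have hlt : ∀ k, 1 ≤ k → A.valuation ((f.coeff k : ℤ) : L) < A.valuation ((f.coeff 0 : ℤ) : L) := by
    intro k hk1
    rw [hc k, hc 0, map_mul, map_mul]
    exact mul_lt_mul_of_pos_left (hk k hk1) hvp
  have hcn : ((f.coeff n : ℤ) : L) = (p : L) := by
    have : f.coeff n = (p : ℤ) := by rw [← hdeg]; exact hlead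
    rw [this]; simp
  have h1 : A.valuation ((f.coeff 0 : ℤ) : L) = 1 := by
    rcases lt_or_eq_of_le (val_intCast_le_one A (f.coeff 0)) with h | h
    · exfalso
      have hd := val_intCast_le_of_dvd (A := A) (dvd_of_val_intCast_lt_one hp hpA h)
      have := hlt n hn
      rw [hcn] at this
      exact absurd (lt_of_lt_of_le this hd) (lt_irrefl _)
    · exact h
  refine ⟨h1, fun k hk1 => dvd_of_val_intCast_lt_one hp hpA ?_⟩
  have := hlt k hk1
  rwa [h1] at this

include hp hpA hp0 hn hdeg hlead hsplit hroot in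
/-- **Eisenstein**: all roots have the same valuation `v x ^ n = (v p)⁻¹`. -/
theorem Eis.val_root {x : L} (hx : (f.map (Int.castRingHom L)).eval x = 0) :
    A.valuation (x ^ n * (p : L)) = 1 := by
  obtain ⟨h0, hk⟩ := Eis.coeff hp hpA hp0 hn hdeg hlead hsplit hroot
  set g := f.map (Int.castRingHom L) with hg
  have hx1 : 1 < A.valuation x :=
    not_le.mp (fun h => hroot x hx ((A.valuation_le_one_iff x).mp h))
  have hgc : ∀ k, g.coeff k = ((f.coeff k : ℤ) : L) := fun k => by rw [hg, coeff_map]; simp
  have hcn : g.coeff n = (p : L) := by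
    rw [hgc]
    have : f.coeff n = (p : ℤ) := by rw [← hdeg]; exact hlead
    rw [this]; simp
  set h := g - C (g.coeff 0) with hh
  have hhdeg : h.natDegree ≤ n := by
    rw [hh]
    refine (natDegree_sub_le _ _).trans ?_
    rw [natDegree_C, Eis.natDegree_map hp0 hdeg hlead]
    exact max_le le_rfl (Nat.zero_le _)
  have hhc : ∀ k, A.valuation (h.coeff k) ≤ A.valuation (p : L) := by
    intro k
    rcases Nat.eq_zero_or_pos k with rfl | hk1
    · rw [hh, coeff_sub, coeff_C_zero, sub_self, map_zero]; exact zero_le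
    · rw [hh, coeff_sub, coeff_C, if_neg (by omega), sub_zero, hgc]
      exact val_intCast_le_of_dvd (hk k hk1)
  have hhn : h.coeff n = (p : L) := by
    rw [hh, coeff_sub, coeff_C, if_neg (by omega), sub_zero, hcn]
  have hv := val_eval_eq A hx1 ((Valuation.ne_zero_iff _).mpr hp0) h n hhdeg (fun k _ => hhc k)
    (by rw [hhn])
  have he : h.eval x = - g.coeff 0 := by
    rw [hh, eval_sub, eval_C, hx, zero_sub]
  rw [he, Valuation.map_neg, hgc, h0] at hv
  rw [map_mul, map_pow, mul_comm]
  exact hv.symm

include hp hpA hp0 hn hdeg hlead hsplit hroot in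
/-- **Tame discriminant**: two roots which are congruent modulo `x 𝔪` are equal. -/
theorem Eis.root_sep [DecidableEq L] (hpn : ¬ p ∣ n) {x x' : L}
    (hx : (f.map (Int.castRingHom L)).eval x = 0)
    (hx' : (f.map (Int.castRingHom L)).eval x' = 0)
    (hlt : A.valuation (x - x') < A.valuation x) : x = x' := by
  by_contra hne
  obtain ⟨h0, hk⟩ := Eis.coeff hp hpA hp0 hn hdeg hlead hsplit hroot
  have hvx := Eis.val_root hp hpA hp0 hn hdeg hlead hsplit hroot hx
  set g := f.map (Int.castRingHom L) with hg
  have hg0 : g ≠ 0 := Eis.map_ne_zero hp0 hlead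
  have hx1 : 1 < A.valuation x :=
    not_le.mp (fun h => hroot x hx ((A.valuation_le_one_iff x).mp h))
  have hxpos : (0 : A.ValueGroup) < A.valuation x := lt_trans zero_lt_one hx1
  have hvp : A.valuation (p : L) ≠ 0 := (Valuation.ne_zero_iff _).mpr hp0
  have hgc : ∀ k, g.coeff k = ((f.coeff k : ℤ) : L) := fun k => by rw [hg, coeff_map]; simp
  have hcn : g.coeff n = (p : L) := by
    rw [hgc]
    have : f.coeff n = (p : ℤ) := by rw [← hdeg]; exact hlead
    rw [this]; simp
  -- the derivative, first computation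
  have hdd : (derivative g).natDegree ≤ n - 1 := by
    refine (natDegree_derivative_le g).trans ?_
    rw [Eis.natDegree_map hp0 hdeg hlead]
  have hdc : ∀ k, A.valuation ((derivative g).coeff k) ≤ A.valuation (p : L) := by
    intro k
    rw [coeff_derivative, map_mul, hgc]
    calc A.valuation (((f.coeff (k + 1) : ℤ) : L)) * A.valuation ((k : L) + 1)
        ≤ A.valuation (p : L) * 1 := by
          refine mul_le_mul' (val_intCast_le_of_dvd (hk (k + 1) (by omega))) ?_
          have := val_natCast_le_one A (k + 1)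
          simpa using this
      _ = A.valuation (p : L) := mul_one _
  have hdn : A.valuation ((derivative g).coeff (n - 1)) = A.valuation (p : L) := by
    rw [coeff_derivative, map_mul]
    have e1 : n - 1 + 1 = n := by omega
    have e2 : ((n - 1 : ℕ) : L) + 1 = (n : L) := by
      have := congrArg (Nat.cast : ℕ → L) e1
      push_cast at this
      exact this
    rw [e1, hcn, e2, val_natCast_eq_one_of_not_dvd hp hpA hpn, mul_one]
  have hv1 := val_eval_eq A hx1 hvp (derivative g) (n - 1) hdd (fun k _ => hdc k) hdn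
  -- the derivative, second computation
  have hfac : g = C (p : L) * (g.roots.map (fun a => X - C a)).prod := by
    have := hsplit.eq_prod_roots
    rwa [Eis.leadingCoeff_map hp0 hlead] at this
  have hxr : x ∈ g.roots := (mem_roots hg0).mpr hx
  have hx'r : x' ∈ g.roots := (mem_roots hg0).mpr hx'
  have hx'e : x' ∈ g.roots.erase x := (Multiset.mem_erase_of_ne (Ne.symm hne)).mpr hx'r
  have hev : (derivative g).eval x = (p : L) * ((g.roots.erase x).map (fun a => x - a)).prod := by
    conv_lhs => rw [hfac]
    rw [derivative_C_mul, eval_mul, eval_C, eval_multiset_prod_X_sub_C_derivative hxr]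
  have hcard : Multiset.card (g.roots.erase x) = n - 1 := by
    rw [Multiset.card_erase_of_mem hxr, ← hsplit.natDegree_eq_card_roots,
      Eis.natDegree_map hp0 hdeg hlead]
    rfl
  -- all roots have the same valuation
  have hval : ∀ a ∈ g.roots, A.valuation a = A.valuation x := by
    intro a ha
    have h1 := Eis.val_root hp hpA hp0 hn hdeg hlead hsplit hroot ((mem_roots hg0).mp ha)
    have h2 : A.valuation a ^ n = A.valuation x ^ n := by
      have e1 : A.valuation a ^ n * A.valuation (p : L) = 1 := by
        rw [← map_pow, ← map_mul]; exact h1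
      have e2 : A.valuation x ^ n * A.valuation (p : L) = 1 := by
        rw [← map_pow, ← map_mul]; exact hvx
      exact mul_right_cancel₀ hvp (e1.trans e2.symm)
    exact (pow_left_inj₀ zero_le zero_le (by omega : n ≠ 0)).mp h2
  have hT : ∀ t ∈ ((g.roots.erase x).map (fun a => A.valuation (x - a))), t ≤ A.valuation x := by
    intro t ht
    obtain ⟨a, ha, rfl⟩ := Multiset.mem_map.mp ht
    exact Valuation.map_sub_le _ le_rfl (le_of_eq (hval a (Multiset.mem_of_mem_erase ha)))
  have hlt' := multiset_prod_lt_pow ((g.roots.erase x).map (fun a => A.valuation (x - a)))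
    hxpos hT (Multiset.mem_map_of_mem _ hx'e) hlt
  rw [Multiset.card_map, hcard] at hlt'
  have hv2 : A.valuation ((derivative g).eval x) =
      A.valuation (p : L) * ((g.roots.erase x).map (fun a => A.valuation (x - a))).prod := by
    rw [hev, map_mul, map_multiset_prod, Multiset.map_map]
    rfl
  rw [hv2] at hv1
  have := mul_left_cancel₀ hvp hv1
  rw [this] at hlt'
  exact lt_irrefl _ hlt'

end Eis

end Fermat.Agent.Tate.T7.H46
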