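/-
Stmt_Tate part T7, packages SSval, SSsep, SSmul (helper46).

Under `AllInKer` (all nonzero `p`-torsion points of `W` have non-integral `x` at `A | p`):
* `stmt_SSval` : `|x(P)|^((p²-1)/2) = |p|⁻¹`           (Eisenstein shape of `preΨ'_p ∈ ℤ[X]`);
* `stmt_SSsep` : `|x(P) - x(P')| < |x(P)| → x(P) = x(P')` (tame discriminant);
* `stmt_SSmul` : `|x(nP) n² - x(P)| < |x(P)|`            (multiplication formula, leading terms).
The valuation-theoretic core is in `H46_SSAlg`.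
-/
import Fermat.Agent.Tate.T7.Defs
import Fermat.Agent.Tate.T7.H46_SSAlg
import Fermat.Agent.Lib.TorsionGen.Count

set_option autoImplicit false

namespace Fermat.Agent.Tate.T7.H46

open WeierstrassCurve WeierstrassCurve.Affine Polynomial
open Fermat.Agent.Lib.TorsionGen

variable (W : WeierstrassCurve ℤ)

/-- The curve over `Q̄` is the image of the integral model. -/
lemma curveQb_eq :
    ((W.map (Int.castRingHom ℚ)).toAffine⁄Qb) = W.map (Int.castRingHom Qb) := by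
  change (W.map (Int.castRingHom ℚ)).map (algebraMap ℚ Qb) = _
  rw [WeierstrassCurve.map_map]
  congr 1

lemma curveQb_Δ_ne_zero (hΔ : W.Δ ≠ 0) :
    ((W.map (Int.castRingHom ℚ)).toAffine⁄Qb).Δ ≠ 0 := by
  rw [curveQb_eq, WeierstrassCurve.map_Δ]
  simpa using hΔ

lemma curveQb_preΨ' (p : ℕ) :
    ((W.map (Int.castRingHom ℚ)).toAffine⁄Qb).preΨ' p = (W.preΨ' p).map (Int.castRingHom Qb) := by
  rw [curveQb_eq, WeierstrassCurve.map_preΨ']

lemma curveQb_ΨSq (n : ℤ) :
    ((W.map (Int.castRingHom ℚ)).toAffine⁄Qb).ΨSq n = (W.ΨSq n).map (Int.castRingHom Qb) := by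
  rw [curveQb_eq, WeierstrassCurve.map_ΨSq]

lemma curveQb_Φ (n : ℤ) :
    ((W.map (Int.castRingHom ℚ)).toAffine⁄Qb).Φ n = (W.Φ n).map (Int.castRingHom Qb) := by
  rw [curveQb_eq, WeierstrassCurve.map_Φ]

section

variable {W} {p : ℕ} (hp : p.Prime) (hp2 : p ≠ 2)

include hp hp2 in
lemma not_even_of_prime : ¬ Even p := fun he => hp2 ((Nat.Prime.even_iff hp).mp he)

include hp hp2 in
lemma half_pos : 1 ≤ (p ^ 2 - 1) / 2 := by
  have : 3 ≤ p := by have := hp.two_le; omega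
  have h9 : 9 ≤ p ^ 2 := by nlinarith
  omega

include hp hp2 in
lemma not_dvd_half : ¬ p ∣ (p ^ 2 - 1) / 2 := by
  intro h
  have h3 : 3 ≤ p := by have := hp.two_le; omega
  have hodd : ¬ Even p := not_even_of_prime hp hp2
  have hmod : p % 2 = 1 := Nat.odd_iff.mp (Nat.not_even_iff_odd.mp hodd)
  have h2 : 2 ∣ p ^ 2 - 1 := by
    have : (p ^ 2) % 2 = 1 := by rw [Nat.pow_mod, hmod]
    omega
  have h1 : p ∣ p ^ 2 - 1 := by
    obtain ⟨c, hc⟩ := h2
    have : (p ^ 2 - 1) / 2 = c := by omega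
    rw [this] at h
    rw [hc]
    exact Dvd.dvd.mul_left h 2
  have h4 : p ∣ p ^ 2 := Dvd.intro_left (p ^ 1) (by ring)
  have h5 : p ∣ 1 := by
    have := (Nat.dvd_sub h4 h1)
    have e : p ^ 2 - (p ^ 2 - 1) = 1 := by
      have : 1 ≤ p ^ 2 := Nat.one_le_pow _ _ (by omega)
      omega
    rwa [e] at this
  have := Nat.le_of_dvd one_pos h5
  omega

include hp hp2 in
lemma natDegree_preΨ'_prime : (W.preΨ' p).natDegree = (p ^ 2 - 1) / 2 := by
  have h0 : ((p : ℕ) : ℤ) ≠ 0 := by exact_mod_cast hp.ne_zero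
  rw [W.natDegree_preΨ' h0, if_neg (not_even_of_prime hp hp2)]

include hp hp2 in
lemma leadingCoeff_preΨ'_prime : (W.preΨ' p).leadingCoeff = (p : ℤ) := by
  have h0 : ((p : ℕ) : ℤ) ≠ 0 := by exact_mod_cast hp.ne_zero
  rw [W.leadingCoeff_preΨ' h0, if_neg (not_even_of_prime hp hp2)]

end

variable {W}

/-- Under `AllInKer` every root of `preΨ'_p` in `Q̄` is outside `A`. -/
lemma root_not_mem (hΔ : W.Δ ≠ 0) {p : ℕ} (hp : p.Prime) (hp2 : p ≠ 2)
    {A : ValuationSubring Qb} (hall : AllInKer W p A) (x : Qb)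
    (hx : ((W.preΨ' p).map (Int.castRingHom Qb)).eval x = 0) : x ∉ A := by
  classical
  obtain ⟨y, h, -⟩ := Fermat.Agent.Lib.Torsion35.exists_point_of_x
    ((W.map (Int.castRingHom ℚ)).toAffine⁄Qb) (curveQb_Δ_ne_zero W hΔ) x
  refine hall x y h ?_
  rw [nsmul_eq_zero_iff_eval_preΨ' h (not_even_of_prime hp hp2), curveQb_preΨ']
  exact hx

/-- The `x`-coordinate of a nonzero `p`-torsion point is a root of `preΨ'_p`. -/
lemma eval_of_torsion {p : ℕ} (hp : p.Prime) (hp2 : p ≠ 2) {x y : Qb}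
    (h : ((W.map (Int.castRingHom ℚ)).toAffine⁄Qb).Nonsingular x y)
    (hP : p • (Point.some x y h : EQbar W) = 0) :
    ((W.preΨ' p).map (Int.castRingHom Qb)).eval x = 0 := by
  classical
  rw [← curveQb_preΨ']
  exact (nsmul_eq_zero_iff_eval_preΨ' h (not_even_of_prime hp hp2)).mp hP

lemma natCast_Qb_ne_zero {p : ℕ} (hp : p.Prime) : (p : Qb) ≠ 0 := by
  exact_mod_cast hp.ne_zero

/-- **SSval**. -/
theorem stmt_SSval : Stmt_SSval := by
  intro W hΔ p hp hp2 A hA hall x y h hP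
  exact Eis.val_root hp hA (natCast_Qb_ne_zero hp) (half_pos hp hp2)
    (natDegree_preΨ'_prime hp hp2) (leadingCoeff_preΨ'_prime hp hp2)
    (IsAlgClosed.splits _) (root_not_mem hΔ hp hp2 hall) (eval_of_torsion hp hp2 h hP)

/-- **SSsep**. -/
theorem stmt_SSsep : Stmt_SSsep := by
  classical
  intro W hΔ p hp hp2 A hA hall x y h x' y' h' hP hP' hlt
  exact Eis.root_sep hp hA (natCast_Qb_ne_zero hp) (half_pos hp hp2)
    (natDegree_preΨ'_prime hp hp2) (leadingCoeff_preΨ'_prime hp hp2)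
    (IsAlgClosed.splits _) (root_not_mem hΔ hp hp2 hall) (not_dvd_half hp hp2)
    (eval_of_torsion hp hp2 h hP) (eval_of_torsion hp hp2 h' hP') hlt

/-- **SSmul**. -/
theorem stmt_SSmul : Stmt_SSmul := by
  classical
  intro W hΔ p hp hp2 A hA hall x y h hP n hn0 hnp x' y' h' hnP
  have hxA : x ∉ A := hall x y h hP
  have hx1 : 1 < A.valuation x := not_le.mp (fun hle => hxA ((A.valuation_le_one_iff x).mp hle))
  have hxpos : (0 : A.ValueGroup) < A.valuation x := lt_trans zero_lt_one hx1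
  -- the multiplication formula
  have hL : ∀ k, 1 ≤ k → k ≤ n → k • (Point.some x y h : EQbar W) ≠ 0 := fun k hk1 hkn =>
    nsmul_ne_zero_of_prime (Point.some_ne_zero h) hp hP hk1 (lt_of_le_of_lt hkn hnp)
  have hmul := xc_nsmul_mul_eval_ΨSq h hn0 hL
  rw [hnP, Fermat.Agent.Lib.Torsion.H11.xc_some, curveQb_ΨSq, curveQb_Φ] at hmul
  set Ψ := ((W.ΨSq (n : ℤ)).map (Int.castRingHom Qb)) with hΨ
  set Φ := ((W.Φ (n : ℤ)).map (Int.castRingHom Qb)) with hΦ
  have hn1 : 1 ≤ n ^ 2 := Nat.one_le_pow _ _ hn0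
  -- leading terms
  have hΦtop := eval_sub_top_lt A hx1 (one_ne_zero) Φ (n ^ 2)
    ((natDegree_map_le).trans (by
      have := W.natDegree_Φ_le (n : ℤ)
      rwa [Int.natAbs_natCast] at this))
    (fun k _ => by rw [hΦ, coeff_map]; exact val_intCast_le_one A _)
  have hΦc : Φ.coeff (n ^ 2) = 1 := by
    rw [hΦ, coeff_map]
    have := W.coeff_Φ (n : ℤ)
    rw [Int.natAbs_natCast] at this
    rw [this]; simp
  rw [hΦc, one_mul, one_mul] at hΦtop
  have hΨtop := eval_sub_top_lt A hx1 (one_ne_zero) Ψ (n ^ 2 - 1)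
    ((natDegree_map_le).trans (by
      have := W.natDegree_ΨSq_le (n : ℤ)
      rwa [Int.natAbs_natCast] at this))
    (fun k _ => by rw [hΨ, coeff_map]; exact val_intCast_le_one A _)
  have hΨc : Ψ.coeff (n ^ 2 - 1) = (n : Qb) ^ 2 := by
    rw [hΨ, coeff_map]
    have := W.coeff_ΨSq (n : ℤ)
    rw [Int.natAbs_natCast] at this
    rw [this]; simp
  rw [hΨc, one_mul] at hΨtop
  have hvn : A.valuation (n : Qb) = 1 :=
    val_natCast_eq_one_of_not_dvd hp hA (fun hd => by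
      have := Nat.le_of_dvd hn0 hd
      omega)
  have hvn2 : A.valuation ((n : Qb) ^ 2 * x ^ (n ^ 2 - 1)) = A.valuation x ^ (n ^ 2 - 1) := by
    rw [map_mul, map_pow, map_pow, hvn, one_pow, one_mul]
  have hΨv : A.valuation (Ψ.eval x) = A.valuation x ^ (n ^ 2 - 1) := by
    rw [← hvn2]
    apply Valuation.map_eq_of_sub_lt
    rw [hvn2]
    exact hΨtop
  have hΨpos : (0 : A.ValueGroup) < A.valuation (Ψ.eval x) := by
    rw [hΨv]; exact pow_pos hxpos _
  -- the key identity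
  have hxx : x * x ^ (n ^ 2 - 1) = x ^ (n ^ 2) := by
    rw [← pow_succ']
    congr 1
    omega
  have key : (x' * (n : Qb) ^ 2 - x) * Ψ.eval x =
      (n : Qb) ^ 2 * (Φ.eval x - x ^ (n ^ 2)) - x * (Ψ.eval x - (n : Qb) ^ 2 * x ^ (n ^ 2 - 1)) := by
    linear_combination ((n : Qb) ^ 2) * hmul - ((n : Qb) ^ 2) * hxx
  have hlt : A.valuation ((x' * (n : Qb) ^ 2 - x) * Ψ.eval x) < A.valuation x ^ (n ^ 2) := by
    rw [key]
    apply Valuation.map_sub_lt
    · rw [map_mul, map_pow, hvn, one_pow, one_mul]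
      exact hΦtop
    · rw [map_mul]
      calc A.valuation x * A.valuation (Ψ.eval x - (n : Qb) ^ 2 * x ^ (n ^ 2 - 1))
          < A.valuation x * A.valuation x ^ (n ^ 2 - 1) := mul_lt_mul_of_pos_left hΨtop hxpos
        _ = A.valuation x ^ (n ^ 2) := by
            rw [← pow_succ']
            congr 1
            omega
  rw [map_mul, hΨv] at hlt
  have e : A.valuation x ^ (n ^ 2) = A.valuation x * A.valuation x ^ (n ^ 2 - 1) := by
    rw [← pow_succ']
    congr 1
    omega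
  rw [e] at hlt
  exact lt_of_mul_lt_mul_right hlt zero_le

end Fermat.Agent.Tate.T7.H46
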