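/-
Tate T7, package XFER (helper52): the torsion form `Stmt_TWT` of the Taylor–Wiles condition gives
`S59.TWCond` for the residual representation of any Tate datum.

Route: `Stmt_TWT` gives four elements of `H` whose Gram matrix of traces on `E[p]` is invertible
(`S58.H99.exists_gram_ne_zero_of_span`); the traces of `D.ρ.residual` are the traces on `E[p]`
(`S58.H99.residual_trace_det`, with T3c); base change to `K` keeps the Gram determinant nonzero;
an `H`-stable proper nonzero subspace would make it vanish (`S58.H99.gram_det_eq_zero_of_stable`).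
-/
import Fermat.Agent.Tate.T7.Defs
import Fermat.Agent.Tate.H7_Charpoly
import Fermat.Agent.S58.H99_Odd

set_option autoImplicit false

open IsLocalRing

namespace Fermat.Agent.Tate.T7.H52

open Fermat.Agent.S58 Fermat.Agent.S58.H99

/-- `p` lies in the maximal ideal of `ℤ_[p]`. -/
theorem natCast_mem_maximalIdeal_padicInt' (p : ℕ) [hp : Fact p.Prime] :
    (p : ℤ_[p]) ∈ maximalIdeal ℤ_[p] := by
  rw [mem_maximalIdeal, mem_nonunits_iff]
  exact PadicInt.p_nonunit

/-- The representation of a Tate datum has the Frobenius characteristic polynomials of `W`. -/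
theorem hasFrobOf_tateData (W : WeierstrassCurve ℤ) (hΔ : W.Δ ≠ 0) (p : ℕ) [Fact p.Prime]
    (D : TateData W p) : HasFrobOf W D.ρ (badSet W p) := by
  intro ℓ hℓ hℓS P hP σ hσ
  obtain ⟨hℓp, hgood⟩ := not_mem_badSet hΔ hℓ hℓS
  exact Fermat.Agent.Tate.H7.stmt_T3c W hΔ p D ℓ hℓ hℓp hgood P hP σ hσ

/-- **Gram criterion on a subgroup.**  If four elements of a subgroup `G` have an invertible Gram
matrix of traces for `ρbar`, every `G`-stable subspace of any base change is trivial. -/
theorem stable_eq_bot_or_top_of_gram {k : Type} [Field k] (ρbar : ResidualGaloisRep k)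
    (G : Subgroup (AlgebraicClosure ℚ ≃ₐ[ℚ] AlgebraicClosure ℚ))
    (g : Fin 2 × Fin 2 → G)
    (h : (Matrix.of fun a b =>
      LinearMap.trace k ρbar.V (ρbar.ρ ((g a : AlgebraicClosure ℚ ≃ₐ[ℚ] AlgebraicClosure ℚ)
        * (g b : AlgebraicClosure ℚ ≃ₐ[ℚ] AlgebraicClosure ℚ)))).det ≠ 0)
    (K : Type) [Field K] [Algebra k K] (V : Submodule K (ρbar.baseChange K).V)
    (hV : ∀ σ ∈ G, ∀ x ∈ V, (ρbar.baseChange K).ρ σ x ∈ V) : V = ⊥ ∨ V = ⊤ := by
  classical
  by_contra hcon
  rw [not_or] at hcon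
  apply h
  have hfin : Module.finrank K (ρbar.baseChange K).V = 2 := (ρbar.baseChange K).finrank_eq
  have hz := gram_det_eq_zero_of_stable hfin (((ρbar.baseChange K).ρ).comp G.subtype) V
    (fun σ x hx => hV σ σ.2 x hx) hcon.1 hcon.2 g
  have hmap : (Matrix.of fun a b => LinearMap.trace K (ρbar.baseChange K).V
      ((((ρbar.baseChange K).ρ).comp G.subtype) (g a * g b))) =
      (Matrix.of fun a b => LinearMap.trace k ρbar.V
        (ρbar.ρ ((g a : AlgebraicClosure ℚ ≃ₐ[ℚ] AlgebraicClosure ℚ)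
          * (g b : AlgebraicClosure ℚ ≃ₐ[ℚ] AlgebraicClosure ℚ)))).map (algebraMap k K) := by
    ext a b
    simp only [Matrix.of_apply, Matrix.map_apply]
    exact LinearMap.trace_baseChange (ρbar.ρ ((g a : AlgebraicClosure ℚ ≃ₐ[ℚ] AlgebraicClosure ℚ)
      * (g b : AlgebraicClosure ℚ ≃ₐ[ℚ] AlgebraicClosure ℚ))) K
  rw [hmap, ← RingHom.mapMatrix_apply, ← RingHom.map_det] at hz
  exact (map_eq_zero (algebraMap k K)).mp hz

/-- **T7-XFER**: the torsion form gives the Taylor–Wiles condition. -/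
theorem stmt_XFER : Stmt_XFER := by
  intro hTWT W hΔ hss p hpF hp2 D hirr K _ _ G hG V hV
  classical
  have hpO := natCast_mem_maximalIdeal_padicInt' p
  have hchar := charP_residueField hpF.out hpO
  have hspan := hTWT W hΔ hss p hp2 hirr G hG
  have hspan' : Submodule.span (ZMod p) (Set.range ((torsRho W p).comp G.subtype)) = ⊤ := by
    rw [← hspan]
    congr 1
    ext X
    constructor
    · rintro ⟨σ, rfl⟩
      exact ⟨σ, σ.2, rfl⟩
    · rintro ⟨σ, hσ, rfl⟩
      exact ⟨⟨σ, hσ⟩, rfl⟩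
  obtain ⟨g, hg⟩ := exists_gram_ne_zero_of_span (finrank_torsW W hΔ p)
    ((torsRho W p).comp G.subtype) hspan'
  refine stable_eq_bot_or_top_of_gram D.ρ.residual G g ?_ K V hV
  have hmap : (Matrix.of fun a b =>
        LinearMap.trace (ResidueField ℤ_[p]) D.ρ.residual.V
          (D.ρ.residual.ρ ((g a : AlgebraicClosure ℚ ≃ₐ[ℚ] AlgebraicClosure ℚ)
            * (g b : AlgebraicClosure ℚ ≃ₐ[ℚ] AlgebraicClosure ℚ)))) =
      (Matrix.of fun a b =>
        LinearMap.trace (ZMod p) (TorsW W p)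
          (((torsRho W p).comp G.subtype) (g a * g b))).map
        (ZMod.castHom (dvd_refl p) (ResidueField ℤ_[p])) := by
    ext a b
    simp only [Matrix.of_apply, Matrix.map_apply]
    exact (residual_trace_det W hΔ p hpO D.ρ (badSet W p) (hasFrobOf_tateData W hΔ p D)
      ((g a : AlgebraicClosure ℚ ≃ₐ[ℚ] AlgebraicClosure ℚ)
        * (g b : AlgebraicClosure ℚ ≃ₐ[ℚ] AlgebraicClosure ℚ))).1
  rw [hmap, ← RingHom.mapMatrix_apply, ← RingHom.map_det]
  exact fun h0 => hg ((map_eq_zero _).mp h0)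

end Fermat.Agent.Tate.T7.H52
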